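import Mathlib
import Fermat.Agent.MU.Lib.BadRed.Graph.Lift

section MergeWrap_Lib_BadRed_Graph_Deuring_TypeDef -- from Lib/BadRed/Graph/Deuring/TypeDef.lean

set_option autoImplicit false

/-!
# Cluster G, graph Deuring construction: the interface between `Type*.lean` and `Push*.lean`,
`Node.lean`, `Main.lean`  (port of `Nodal/Deuring2/TypeDef.lean`, `PushDef.lean`, `Assembly.lean`)

`GraphType G` : a reduction map `r` of the places of `F` for the seed `G`, together with the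
existence statements which characterise it.  Notation: `𝔏(D) = L(D) ∩ ⋂_c O_c` (`GraphCore.IsInt`).

For a place `P` with `r P = some ⟨c, Q⟩` ("`P` reduces to the smooth point `Q` of `c`"):
* `pole` : some `f ∈ 𝔏(m D₀ + P)` has a reduction on `c` with a pole of order `m R_c(Q) + 1` at `Q`;
* `zero` : some `f ∈ 𝔏(m D₀ - P)` has a reduction on `c` of order `- m R_c(Q) + 1` at `Q`.
For a place `P` with `r P ≠ some ⟨c, Q⟩`, `Q` not a branch of a node:
* `unit` : some `f ∈ 𝔏(m D₀ - P)` has a reduction on `c` of exact order `- m R_c(Q)` at `Q`.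
For an ordinary place `P` (`r P = some X`) and a node `i`:
* `node_unit` : some `f ∈ 𝔏(m D₀ - P)` has reductions with the value `1` at the node `i`.
* `supp` : the places of `supp D₀` reduce into the supports of the `R c`.

The statements `GraphType.PushAll` (units of ALL valuation rings), `GraphType.Push` (units of ONE
valuation ring) and `GraphType.Node` are the three fields of `GraphSetup` which are proved in
`Push*.lean` and `Node.lean`.
-/

noncomputable section

open AlgebraicCurve Fermat.Agent.RR Fermat.Agent.Deuring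

namespace Fermat.Agent.BadRedG

open Fermat.Agent.BadRed

variable {K F k : Type*} [Field K] [Field F] [Algebra K F] [Field k]
  {κ : Type*} {Fk : κ → Type*} [∀ c, Field (Fk c)] [∀ c, Algebra k (Fk c)] {ι : Type*}
  [Fintype κ] [Fintype ι]

/-- The reduction map of places attached to a seed, with its characteristic properties. -/
structure GraphType (G : GraphSeed K F k κ Fk ι) where
  /-- reduction of places -/
  r : Place K F → Option (Σ c, Place k (Fk c))
  r_ne_node₁ : ∀ P i, r P ≠ some ⟨G.src i, G.s₁ i⟩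
  r_ne_node₂ : ∀ P i, r P ≠ some ⟨G.tgt i, G.s₂ i⟩
  pole : ∀ P (c : κ) (Q : Place k (Fk c)), r P = some ⟨c, Q⟩ → ∃ (m : ℕ) (f : F),
    G.toGraphCore.IsInt (m • G.D₀ + Finsupp.single P 1) f ∧ (G.S c).red f ≠ 0 ∧
      Q.ord ((G.S c).red f) = -((m • G.R c) Q) - 1
  zero : ∀ P (c : κ) (Q : Place k (Fk c)), r P = some ⟨c, Q⟩ → ∃ (m : ℕ) (f : F),
    G.toGraphCore.IsInt (m • G.D₀ - Finsupp.single P 1) f ∧ (G.S c).red f ≠ 0 ∧
      Q.ord ((G.S c).red f) = -((m • G.R c) Q) + 1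
  unit : ∀ P (c : κ) (Q : Place k (Fk c)), G.toGraphCore.IsSmoothPt c Q →
    r P ≠ some ⟨c, Q⟩ → ∃ (m : ℕ) (f : F),
      G.toGraphCore.IsInt (m • G.D₀ - Finsupp.single P 1) f ∧ (G.S c).red f ≠ 0 ∧
        Q.ord ((G.S c).red f) = -((m • G.R c) Q)
  node_unit : ∀ P X, r P = some X → ∀ i, ∃ (m : ℕ) (f : F),
    G.toGraphCore.IsInt (m • G.D₀ - Finsupp.single P 1) f ∧
      ValAt (G.s₁ i) ((G.S (G.src i)).red f) 1 ∧ ValAt (G.s₂ i) ((G.S (G.tgt i)).red f) 1
  supp : ∀ P, G.D₀ P ≠ 0 → ∃ (c : κ) (Q : Place k (Fk c)), r P = some ⟨c, Q⟩ ∧ G.R c Q ≠ 0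

variable {G : GraphSeed K F k κ Fk ι}

/-- push at the smooth points of `c`, for the units of ALL the valuation rings (T: `PushTwo`). -/
def GraphType.PushAll (T : GraphType G) : Prop :=
  ∀ (c : κ) (f : F), (∀ c', f ∈ (G.S c').Ov) → (∀ c', f⁻¹ ∈ (G.S c').Ov) → f ≠ 0 →
    ∀ Q : Place k (Fk c), G.toGraphCore.IsSmoothPt c Q →
      Finsupp.mapDomain T.r (divOf (G.S c).hF f) (some ⟨c, Q⟩) = Q.ord ((G.S c).red f)

/-- push at the smooth points of `c`, for the units of the valuation ring of `c`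
(the field `push` of `GraphSetup`). -/
def GraphType.Push (T : GraphType G) : Prop :=
  ∀ (c : κ) (f : F), f ∈ (G.S c).Ov → f⁻¹ ∈ (G.S c).Ov → f ≠ 0 →
    ∀ Q : Place k (Fk c),
      (∀ i, (⟨c, Q⟩ : Σ c, Place k (Fk c)) ≠ ⟨G.src i, G.s₁ i⟩) →
      (∀ i, (⟨c, Q⟩ : Σ c, Place k (Fk c)) ≠ ⟨G.tgt i, G.s₂ i⟩) →
      Finsupp.mapDomain T.r (divOf (G.S c).hF f) (some ⟨c, Q⟩) = Q.ord ((G.S c).red f)

/-- the node condition (the field `node` of `GraphSetup`). -/
def GraphType.Node (T : GraphType G) : Prop :=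
  ∀ f : F, (∀ c, f ∈ (G.S c).Ov) → (∀ P, T.r P = none → 0 ≤ P.ord f) → ∀ i,
    0 ≤ (G.s₁ i).ord ((G.S (G.src i)).red f) ∧ 0 ≤ (G.s₂ i).ord ((G.S (G.tgt i)).red f) ∧
      ∃ a : k, ValAt (G.s₁ i) ((G.S (G.src i)).red f) a ∧
        ValAt (G.s₂ i) ((G.S (G.tgt i)).red f) a

/-- every smooth point of the special fibre lifts (the field `r_surj` of `GraphSetup`). -/
def GraphType.RSurj (T : GraphType G) : Prop :=
  ∀ (c : κ) (Q : Place k (Fk c)),
    (∀ i, (⟨c, Q⟩ : Σ c, Place k (Fk c)) ≠ ⟨G.src i, G.s₁ i⟩) →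
    (∀ i, (⟨c, Q⟩ : Σ c, Place k (Fk c)) ≠ ⟨G.tgt i, G.s₂ i⟩) → ∃ P, T.r P = some ⟨c, Q⟩

/-- **The graph reduction package of a seed** (assembly). -/
def GraphType.toGraphSetup (T : GraphType G) (hs : T.RSurj) (hp : T.Push) (hn : T.Node) :
    GraphSetup K F k κ Fk ι where
  S := G.S
  A_eq := G.A_eq
  res_eq := G.res_eq
  lat := G.lat
  src := G.src
  tgt := G.tgt
  src_ne_tgt := G.src_ne_tgt
  s₁ := G.s₁
  s₂ := G.s₂
  s₁_inj := G.s₁_inj
  s₂_inj := G.s₂_inj
  s₁_ne_s₂ := G.s₁_ne_s₂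
  conn := G.conn
  r := T.r
  r_ne_node₁ := T.r_ne_node₁
  r_ne_node₂ := T.r_ne_node₂
  r_surj := hs
  push := hp
  node := hn

@[simp] theorem GraphType.toGraphSetup_r (T : GraphType G) (hs : T.RSurj) (hp : T.Push)
    (hn : T.Node) : (T.toGraphSetup hs hp hn).r = T.r := rfl

@[simp] theorem GraphType.toGraphSetup_S (T : GraphType G) (hs : T.RSurj) (hp : T.Push)
    (hn : T.Node) : (T.toGraphSetup hs hp hn).S = G.S := rfl

/-- (LIFT) passes to the package. -/
theorem GraphType.toGraphSetup_hasLift (T : GraphType G) (hs : T.RSurj) (hp : T.Push)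
    (hn : T.Node) (hl : G.HasLift) : (T.toGraphSetup hs hp hn).HasLift G.D₀ G.R := by
  obtain ⟨m₀, h⟩ := hl
  refine ⟨m₀, fun m hm y hy => ?_⟩
  obtain ⟨f, hf, hfy⟩ := h m hm y hy
  exact ⟨f, hf.1, hf.2, fun c => congrFun hfy c⟩

/-- canonicity of the reduction map: `t` preserves the valuation rings, is trivial on the residue
fields and fixes `D₀`  ⟹  `r (t • P) = r P`. -/
def GraphType.Canon (T : GraphType G) : Prop :=
  ∀ t : SemilinearAut K F, (∀ c (f : F), f ∈ (G.S c).Ov → t • f ∈ (G.S c).Ov) →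
    (∀ c (f : F), f ∈ (G.S c).Ov → (G.S c).red (t • f) = (G.S c).red f) →
    (∀ P, G.D₀ (t • P) = G.D₀ P) → ∀ P : Place K F, T.r (t • P) = T.r P

/-- canonicity for automorphisms which PERMUTE the components: `π` a permutation of `κ`,
`e c : Fk c ≃ₐ[k] Fk (π c)` with `red_{π c} (t • f) = e c (red_c f)`; if the action on the special
fibre preserves the reduced seed divisors `R`, and `t` fixes `D₀`, then `P` ordinary ⟹ `t • P`
ordinary.  (Only the ordinarity is exported; it is what Steps 1-3 of the blueprint use.) -/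
def GraphType.CanonPerm (T : GraphType G) : Prop :=
  ∀ (t : SemilinearAut K F) (π : Equiv.Perm κ) (e : ∀ c, Fk c ≃ₐ[k] Fk (π c)),
    (∀ c (f : F), f ∈ (G.S c).Ov → t • f ∈ (G.S (π c)).Ov) →
    (∀ c (f : F), f ∈ (G.S c).Ov → (G.S (π c)).red (t • f) = e c ((G.S c).red f)) →
    (∀ P, G.D₀ (t • P) = G.D₀ P) →
    ∀ P : Place K F, (∃ X, T.r P = some X) → ∃ X, T.r (t • P) = some X

end Fermat.Agent.BadRedG
end
end MergeWrap_Lib_BadRed_Graph_Deuring_TypeDef
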