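import Mathlib
import Fermat.Agent.MU.Lib.BadRed.Graph.Deuring.TypeDef

section MergeWrap_Lib_BadRed_Graph_Deuring_PermDef -- from Lib/BadRed/Graph/Deuring/PermDef.lean

set_option autoImplicit false

/-!
# Cluster G, graph Deuring construction: automorphisms of a seed which PERMUTE the components
(interface; port of `NodalSeed.IsSemiAut`, `Nodal/Deuring2/CanonSemi.lean`, with a permutation)

The inertia group acts on `F` semilinearly (through its action on `K`), trivially on the residue
field `k`, permutes the valuations (`π`) and induces `k`-isomorphisms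
`e c : Fk c ≃ₐ[k] Fk (π c)` of the residue function fields.

* `PlaceCorr e Q Q'` : the place `Q'` of `Fk c'` is the image of the place `Q` of `Fk c` under
  `e : Fk c ≃ₐ[k] Fk c'`  (`ord_{Q'} (e y) = ord_Q y`);
* `GraphSeed.IsPermAut t π e` : `t` is an automorphism of the seed: it maps `O_c` to `O_{π c}`,
  `red_{π c} (t f) = e c (red_c f)`, it fixes `D₀`, and the action on the special fibre preserves
  the divisors `R c` and the branches of the nodes;
* `GraphType.RSmulPerm` : **canonicity**: `r (t • P) = (π, e) • r P`;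
* `GraphType.OrdSmulPerm` : `t` preserves the ordinary places (consequence).
-/

noncomputable section

open AlgebraicCurve Fermat.Agent.RR Fermat.Agent.Deuring

namespace Fermat.Agent.BadRedG

open Fermat.Agent.BadRed

/-- `Q'` is the image of the place `Q` under the isomorphism `e`. -/
def PlaceCorr {k L L' : Type*} [Field k] [Field L] [Field L'] [Algebra k L] [Algebra k L']
    (e : L ≃ₐ[k] L') (Q : Place k L) (Q' : Place k L') : Prop :=
  ∀ y : L, Q'.ord (e y) = Q.ord y

variable {K F k : Type*} [Field K] [Field F] [Algebra K F] [Field k]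
  {κ : Type*} {Fk : κ → Type*} [∀ c, Field (Fk c)] [∀ c, Algebra k (Fk c)] {ι : Type*}
  [Fintype κ] [Fintype ι]

/-- `t` is an automorphism of the seed `G`, acting on the special fibre through the permutation
`π` of the components and the isomorphisms `e c`. -/
structure GraphSeed.IsPermAut (G : GraphSeed K F k κ Fk ι) (t : SemilinearAut K F)
    (π : Equiv.Perm κ) (e : ∀ c, Fk c ≃ₐ[k] Fk (π c)) : Prop where
  mem : ∀ (c : κ) (f : F), f ∈ (G.S c).Ov → t • f ∈ (G.S (π c)).Ov
  red : ∀ (c : κ) (f : F), f ∈ (G.S c).Ov → (G.S (π c)).red (t • f) = e c ((G.S c).red f)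
  D₀_smul : ∀ P : Place K F, G.D₀ (t • P) = G.D₀ P
  /-- every place has an image, with the same multiplicity in `R` -/
  R_smul : ∀ (c : κ) (Q : Place k (Fk c)), ∃ Q' : Place k (Fk (π c)),
    PlaceCorr (e c) Q Q' ∧ G.R (π c) Q' = G.R c Q
  /-- the image of a smooth point is a smooth point -/
  smooth : ∀ (c : κ) (Q : Place k (Fk c)) (Q' : Place k (Fk (π c))), PlaceCorr (e c) Q Q' →
    G.toGraphCore.IsSmoothPt c Q → G.toGraphCore.IsSmoothPt (π c) Q'
  /-- the image of a node is a node (both branches) -/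
  node : ∀ i : ι, ∃ j : ι, ((∃ (h₁ : π (G.src i) = G.src j) (h₂ : π (G.tgt i) = G.tgt j),
      PlaceCorr ((e (G.src i)).trans (AlgEquiv.cast (R := k) (A := Fk) h₁)) (G.s₁ i) (G.s₁ j) ∧
      PlaceCorr ((e (G.tgt i)).trans (AlgEquiv.cast (R := k) (A := Fk) h₂)) (G.s₂ i) (G.s₂ j)) ∨
    (∃ (h₁ : π (G.src i) = G.tgt j) (h₂ : π (G.tgt i) = G.src j),
      PlaceCorr ((e (G.src i)).trans (AlgEquiv.cast (R := k) (A := Fk) h₁)) (G.s₁ i) (G.s₂ j) ∧
      PlaceCorr ((e (G.tgt i)).trans (AlgEquiv.cast (R := k) (A := Fk) h₂)) (G.s₂ i) (G.s₁ j)))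

variable {G : GraphSeed K F k κ Fk ι}

/-- **canonicity for automorphisms permuting the components**: `r (t • P) = (π, e) • r P`. -/
def GraphType.RSmulPerm (T : GraphType G) : Prop :=
  ∀ (t : SemilinearAut K F) (π : Equiv.Perm κ) (e : ∀ c, Fk c ≃ₐ[k] Fk (π c)),
    G.IsPermAut t π e → ∀ (P : Place K F) (c : κ) (Q : Place k (Fk c)),
      T.r P = some ⟨c, Q⟩ → ∃ Q' : Place k (Fk (π c)),
        PlaceCorr (e c) Q Q' ∧ T.r (t • P) = some ⟨π c, Q'⟩

/-- automorphisms of the seed preserve the ordinary places. -/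
def GraphType.OrdSmulPerm (T : GraphType G) : Prop :=
  ∀ (t : SemilinearAut K F) (π : Equiv.Perm κ) (e : ∀ c, Fk c ≃ₐ[k] Fk (π c)),
    G.IsPermAut t π e → ∀ P : Place K F, (∃ X, T.r P = some X) → ∃ X, T.r (t • P) = some X

theorem GraphType.ordSmulPerm_of_rSmulPerm (T : GraphType G) (h : T.RSmulPerm) :
    T.OrdSmulPerm := by
  intro t π e ht P hP
  obtain ⟨⟨c, Q⟩, hX⟩ := hP
  obtain ⟨Q', -, hQ'⟩ := h t π e ht P c Q hX
  exact ⟨_, hQ'⟩

end Fermat.Agent.BadRedG
end
end MergeWrap_Lib_BadRed_Graph_Deuring_PermDef
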