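import Mathlib
import Fermat.Agent.MU.Lib.BadRed.Graph.Lift
import Fermat.Agent.MU.Lib.BadRed.Graph.RedSpaceG
import Fermat.Agent.MU.Lib.BadRed.Graph.RRGraph
import Fermat.Agent.MU.Lib.BadRed.Graph.S1
import Fermat.Agent.MU.Lib.BadRed.Nodal.Deuring2.RRExist

section MergeWrap_Lib_BadRed_Graph_Deuring_Thresh -- from Lib/BadRed/Graph/Deuring/Thresh.lean

set_option autoImplicit false
set_option linter.style.haveILetI false
set_option linter.unusedSectionVars false

/-!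
# Cluster G, graph Deuring construction: thresholds, branches, interpolation  (helper20)

Shared basics for `TypeA.lean`, `TypeB.lean`, `TypeDual.lean` (port of the numerics of
`Nodal/Deuring2/TypeA.lean`, cluster T).

* `GraphCore.IsBr x` : the point `x = ⟨c, Q⟩` of the special fibre is a branch of a node;
  `GraphCore.brFin c` : the finite set of the branches on the component `c`
  (`card ≤ 2 * #ι`);
* `GraphCore.exists_interp` : interpolation on the component `c`: prescribed values at the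
  branches and EXACT orders at finitely many smooth points;
* `GraphCore.mem_graphRR_of_const`, `GraphCore.single_mem_graphRR` : tuples of `graphRR`;
* `GraphSeed.m₁ hl` : the threshold of the type theory (`hl : G.HasLift`);
  `GraphSeed.V_eq`, `GraphSeed.exists_lift`, `GraphSeed.big`, `GraphSeed.big₀`,
  `GraphSeed.ell_add_single`, `GraphSeed.ell_sub_single`.
-/

noncomputable section

open AlgebraicCurve Fermat.Agent.RR Fermat.Agent.Deuring

namespace Fermat.Agent.BadRedG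

open Fermat.Agent.BadRed

variable {K F k : Type*} [Field K] [Field F] [Algebra K F] [Field k]
  {κ : Type*} {Fk : κ → Type*} [∀ c, Field (Fk c)] [∀ c, Algebra k (Fk c)] {ι : Type*}

/-! ### the branches of the nodes -/

section Branch

variable (C : GraphCore K F k κ Fk ι)

/-- the point `x = ⟨c, Q⟩` of the special fibre is a branch of a node. -/
def GraphCore.IsBr (x : Σ c, Place k (Fk c)) : Prop :=
  (∃ i, x = ⟨C.src i, C.s₁ i⟩) ∨ ∃ i, x = ⟨C.tgt i, C.s₂ i⟩

theorem GraphCore.isBr_src (i : ι) : C.IsBr ⟨C.src i, C.s₁ i⟩ := Or.inl ⟨i, rfl⟩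

theorem GraphCore.isBr_tgt (i : ι) : C.IsBr ⟨C.tgt i, C.s₂ i⟩ := Or.inr ⟨i, rfl⟩

theorem GraphCore.isSmoothPt_iff (c : κ) (Q : Place k (Fk c)) :
    C.IsSmoothPt c Q ↔ ¬ C.IsBr ⟨c, Q⟩ := by
  unfold GraphCore.IsSmoothPt GraphCore.IsBr
  constructor
  · rintro ⟨h1, h2⟩ (⟨i, hi⟩ | ⟨i, hi⟩)
    · exact h1 i hi
    · exact h2 i hi
  · intro h
    exact ⟨fun i hi => h (Or.inl ⟨i, hi⟩), fun i hi => h (Or.inr ⟨i, hi⟩)⟩

theorem GraphCore.finite_isBr [Finite ι] (c : κ) :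
    {Q : Place k (Fk c) | C.IsBr ⟨c, Q⟩}.Finite := by
  classical
  have h : (Set.range (Sum.elim (fun i => (⟨C.src i, C.s₁ i⟩ : Σ c, Place k (Fk c)))
      (fun i => ⟨C.tgt i, C.s₂ i⟩))).Finite := Set.finite_range _
  refine (h.preimage (f := Sigma.mk c) sigma_mk_injective.injOn).subset ?_
  rintro Q (⟨i, hi⟩ | ⟨i, hi⟩)
  · exact ⟨Sum.inl i, hi.symm⟩
  · exact ⟨Sum.inr i, hi.symm⟩

/-- the finite set of the branches on the component `c`. -/
def GraphCore.brFin [Finite ι] (c : κ) : Finset (Place k (Fk c)) :=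
  (C.finite_isBr c).toFinset

theorem GraphCore.mem_brFin [Finite ι] {c : κ} {Q : Place k (Fk c)} :
    Q ∈ C.brFin c ↔ C.IsBr ⟨c, Q⟩ := by
  unfold GraphCore.brFin
  rw [Set.Finite.mem_toFinset]
  rfl

theorem GraphCore.card_brFin_le [Fintype ι] (c : κ) :
    (C.brFin c).card ≤ 2 * Fintype.card ι := by
  classical
  set g : ι ⊕ ι → Σ c, Place k (Fk c) :=
    Sum.elim (fun i => ⟨C.src i, C.s₁ i⟩) (fun i => ⟨C.tgt i, C.s₂ i⟩) with hg
  have h1 : ((C.brFin c).map ⟨Sigma.mk c, sigma_mk_injective⟩) ⊆ Finset.univ.image g := by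
    intro x hx
    obtain ⟨Q, hQ, rfl⟩ := Finset.mem_map.mp hx
    rcases C.mem_brFin.mp hQ with ⟨i, hi⟩ | ⟨i, hi⟩
    · exact Finset.mem_image.mpr ⟨Sum.inl i, Finset.mem_univ _, hi.symm⟩
    · exact Finset.mem_image.mpr ⟨Sum.inr i, Finset.mem_univ _, hi.symm⟩
  have h2 := Finset.card_le_card h1
  rw [Finset.card_map] at h2
  have h3 : (Finset.univ.image g).card ≤ Fintype.card (ι ⊕ ι) := by
    have := Finset.card_image_le (s := (Finset.univ : Finset (ι ⊕ ι))) (f := g)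
    rwa [Finset.card_univ] at this
  rw [Fintype.card_sum] at h3
  omega

/-- **Interpolation on the component `c`**: prescribed values at the branches and exact orders at
finitely many smooth points. -/
theorem GraphCore.exists_interp [Fintype ι] [Infinite k] (c : κ) (R : Divisor k (Fk c))
    (hR : ∀ Q, C.IsBr ⟨c, Q⟩ → R Q = 0) (T : Finset (Place k (Fk c)))
    (hT : ∀ Q ∈ T, ¬ C.IsBr ⟨c, Q⟩)
    (hdeg : 2 * (genusFF k (Fk c) : ℤ) + 2 * Fintype.card ι ≤ Divisor.degree R)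
    (v : Place k (Fk c) → k) :
    ∃ a ∈ riemannRochSpace R, a ≠ 0 ∧ (∀ Q, C.IsBr ⟨c, Q⟩ → ValAt Q a (v Q)) ∧
      ∀ Q ∈ T, Q.ord a = -R Q := by
  classical
  have hcard := C.card_brFin_le c
  have hcard' : ((C.brFin c).card : ℤ) ≤ 2 * Fintype.card ι := by exact_mod_cast hcard
  obtain ⟨a, ha, ha0, hav, haT⟩ := exists_interpolation_exact (C.S c).hFk
    (fun Q : ↥(C.brFin c) => (Q : Place k (Fk c))) Subtype.val_injective R
    (fun Q => hR _ (C.mem_brFin.mp Q.2)) T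
    (fun Q hQ i h => hT Q hQ (by rw [h]; exact C.mem_brFin.mp i.2))
    (by rw [Fintype.card_coe]; omega) (fun Q => v Q)
  exact ⟨a, ha, ha0, fun Q hQ => hav ⟨Q, C.mem_brFin.mpr hQ⟩, haT⟩

/-- a tuple of elements of the `L(R c)` taking the same value `v₀` at all the branches lies in
the graph Riemann-Roch space. -/
theorem GraphCore.mem_graphRR_of_const {R : ∀ c, Divisor k (Fk c)} {y : ∀ c, Fk c} (v₀ : k)
    (h1 : ∀ c, y c ∈ riemannRochSpace (R c))
    (h2 : ∀ (c : κ) (Q : Place k (Fk c)), C.IsBr ⟨c, Q⟩ → ValAt Q (y c) v₀) :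
    y ∈ graphRR C.src C.tgt C.s₁ C.s₂ R :=
  ⟨h1, fun i => ⟨v₀, h2 _ _ (C.isBr_src i), h2 _ _ (C.isBr_tgt i)⟩⟩

theorem GraphCore.mem_graphRR_iff {R : ∀ c, Divisor k (Fk c)} {y : ∀ c, Fk c} :
    y ∈ graphRR C.src C.tgt C.s₁ C.s₂ R ↔ (∀ c, y c ∈ riemannRochSpace (R c)) ∧
      ∀ i, ∃ a : k, ValAt (C.s₁ i) (y (C.src i)) a ∧ ValAt (C.s₂ i) (y (C.tgt i)) a :=
  Iff.rfl

open Classical in
/-- the tuple `(0, …, a, …, 0)`, `a ∈ L(R c)` vanishing at the branches on `c`. -/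
theorem GraphCore.single_mem_graphRR {R : ∀ c, Divisor k (Fk c)} {c : κ} {a : Fk c}
    (ha : a ∈ riemannRochSpace (R c))
    (hav : ∀ Q : Place k (Fk c), C.IsBr ⟨c, Q⟩ → ValAt Q a 0) :
    (Pi.single c a : ∀ c, Fk c) ∈ graphRR C.src C.tgt C.s₁ C.s₂ R := by
  refine C.mem_graphRR_of_const 0 (fun c' => ?_) (fun c' Q' hQ' => ?_)
  · by_cases h : c' = c
    · subst h
      rw [Pi.single_eq_same]
      exact ha
    · rw [Pi.single_eq_of_ne h]
      exact Submodule.zero_mem _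
  · by_cases h : c' = c
    · subst h
      rw [Pi.single_eq_same]
      exact hav Q' hQ'
    · rw [Pi.single_eq_of_ne h]
      exact valAt_zero _

open Classical in
/-- the tuple `(1, …, a, …, 1)`, `a ∈ L(R c)` with the value `1` at the branches on `c`. -/
theorem GraphCore.update_one_mem_graphRR {R : ∀ c, Divisor k (Fk c)} (hR : ∀ c, 0 ≤ R c)
    {c : κ} {a : Fk c} (ha : a ∈ riemannRochSpace (R c))
    (hav : ∀ Q : Place k (Fk c), C.IsBr ⟨c, Q⟩ → ValAt Q a 1) :
    (Function.update (fun c' => (1 : Fk c')) c a : ∀ c, Fk c) ∈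
      graphRR C.src C.tgt C.s₁ C.s₂ R := by
  have hone : ∀ (c' : κ), (1 : Fk c') ∈ riemannRochSpace (R c') := by
    intro c'
    rw [mem_riemannRochSpace_iff]
    intro v
    right
    rw [Place.ord_one]
    have := (Finsupp.le_def.mp (hR c')) v
    simp only [Finsupp.coe_zero, Pi.zero_apply] at this
    omega
  refine C.mem_graphRR_of_const 1 (fun c' => ?_) (fun c' Q' hQ' => ?_)
  · by_cases h : c' = c
    · subst h
      rw [Function.update_self]
      exact ha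
    · rw [Function.update_of_ne h]
      exact hone c'
  · by_cases h : c' = c
    · subst h
      rw [Function.update_self]
      exact hav Q' hQ'
    · rw [Function.update_of_ne h]
      exact Or.inl (map_one _).symm

end Branch

/-! ### the seed: thresholds -/

section Seed

variable [Fintype κ] [Fintype ι] (G : GraphSeed K F k κ Fk ι)

theorem GraphSeed.R_br {c : κ} {Q : Place k (Fk c)} (h : G.toGraphCore.IsBr ⟨c, Q⟩) :
    G.R c Q = 0 := by
  rcases h with ⟨i, hi⟩ | ⟨i, hi⟩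
  · obtain ⟨rfl, hQ⟩ := Sigma.mk.inj_iff.mp hi
    rw [eq_of_heq hQ]
    exact G.R_node₁ i
  · obtain ⟨rfl, hQ⟩ := Sigma.mk.inj_iff.mp hi
    rw [eq_of_heq hQ]
    exact G.R_node₂ i

theorem GraphSeed.smul_R_br (m : ℕ) {c : κ} {Q : Place k (Fk c)}
    (h : G.toGraphCore.IsBr ⟨c, Q⟩) : (m • G.R c) Q = 0 := by
  rw [Finsupp.smul_apply, G.R_br h, smul_zero]

theorem GraphSeed.smul_R_nonneg (m : ℕ) (c : κ) : 0 ≤ m • G.R c := nsmul_nonneg (G.R_nonneg c) m

theorem GraphSeed.smul_D₀_nonneg (m : ℕ) : 0 ≤ m • G.D₀ := nsmul_nonneg G.D₀_nonneg m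

theorem GraphSeed.degree_smul_D₀ (m : ℕ) :
    Divisor.degree (m • G.D₀) = m * Divisor.degree G.D₀ := by
  rw [map_nsmul, nsmul_eq_mul]

/-- the numerical threshold. -/
def GraphSeed.mNum (_G : GraphSeed K F k κ Fk ι) : ℕ :=
  2 * (genusFF K F + ∑ c, genusFF k (Fk c)) + 2 * Fintype.card ι + 4

/-- **the threshold of the type theory**: above the threshold of (LIFT) and the numerical
threshold. -/
def GraphSeed.m₁ (hl : G.HasLift) : ℕ := max hl.choose G.mNum

variable {G}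

theorem GraphSeed.mNum_le (hl : G.HasLift) {m : ℕ} (hm : G.m₁ hl ≤ m) : G.mNum ≤ m :=
  le_trans (le_max_right _ _) hm

theorem GraphSeed.m₁_le_add_left (hl : G.HasLift) {m : ℕ} (hm : G.m₁ hl ≤ m) (m' : ℕ) :
    G.m₁ hl ≤ m' + m := le_trans hm (Nat.le_add_left _ _)

theorem GraphSeed.m₁_le_add_right (hl : G.HasLift) {m : ℕ} (hm : G.m₁ hl ≤ m) (m' : ℕ) :
    G.m₁ hl ≤ m + m' := le_trans hm (Nat.le_add_right _ _)

/-- **(LIFT)** `V(m D₀) = graphRR (m R)` for `m ≥ m₁`. -/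
theorem GraphSeed.V_eq (hl : G.HasLift) {m : ℕ} (hm : G.m₁ hl ≤ m) :
    G.toGraphCore.V (m • G.D₀) = graphRR G.src G.tgt G.s₁ G.s₂ (fun c => m • G.R c) := by
  apply le_antisymm (G.V_le m)
  intro y hy
  obtain ⟨f, hf, rfl⟩ := hl.choose_spec m (le_trans (le_max_left _ _) hm) y hy
  exact G.toGraphCore.redAll_mem_V hf

/-- (LIFT), elementwise. -/
theorem GraphSeed.exists_lift (hl : G.HasLift) {m : ℕ} (hm : G.m₁ hl ≤ m) {y : ∀ c, Fk c}
    (hy : y ∈ graphRR G.src G.tgt G.s₁ G.s₂ (fun c => m • G.R c)) :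
    ∃ f : F, G.toGraphCore.IsInt (m • G.D₀) f ∧ G.toGraphCore.redAll f = y :=
  hl.choose_spec m (le_trans (le_max_left _ _) hm) y hy

/-- numerics: for `m ≥ m₁` the degree of `m R_c` is large. -/
theorem GraphSeed.big (hl : G.HasLift) {m : ℕ} (hm : G.m₁ hl ≤ m) (c : κ) :
    2 * ((genusFF K F : ℤ) + genusFF k (Fk c)) + 2 * Fintype.card ι + 4 ≤
      Divisor.degree (m • G.R c) := by
  rw [G.degree_smul_R]
  have h1 : G.mNum ≤ m := GraphSeed.mNum_le hl hm
  have h2 := G.genus_le_sum c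
  have h3 : (m : ℤ) ≤ m * Divisor.degree (G.R c) := by
    have := G.R_pos c
    have hm0 : (0 : ℤ) ≤ m := Int.natCast_nonneg m
    nlinarith
  unfold GraphSeed.mNum at h1
  have h1' : ((2 * (genusFF K F + ∑ c, genusFF k (Fk c)) + 2 * Fintype.card ι + 4 : ℕ) : ℤ) ≤
      m := by exact_mod_cast h1
  push_cast at h1'
  linarith

/-- the hypothesis of `GraphCore.exists_interp` for `m R_c`, and for `m R_c - Q`. -/
theorem GraphSeed.hdeg (hl : G.HasLift) {m : ℕ} (hm : G.m₁ hl ≤ m) (c : κ) :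
    2 * (genusFF k (Fk c) : ℤ) + 2 * Fintype.card ι ≤ Divisor.degree (m • G.R c) := by
  have := GraphSeed.big hl hm c
  have hg := Int.natCast_nonneg (genusFF K F)
  linarith

theorem GraphSeed.hdeg_sub (hl : G.HasLift) {m : ℕ} (hm : G.m₁ hl ≤ m) (c : κ)
    (Q : Place k (Fk c)) :
    2 * (genusFF k (Fk c) : ℤ) + 2 * Fintype.card ι ≤
      Divisor.degree (m • G.R c - Finsupp.single Q 1) := by
  have := GraphSeed.big hl hm c
  have hg := Int.natCast_nonneg (genusFF K F)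
  rw [map_sub, degree_single_one (G.S c).hFk]
  linarith

/-- numerics: for `m ≥ m₁` the degree of `m D₀` is large. -/
theorem GraphSeed.big₀ [Nonempty κ] (hl : G.HasLift) {m : ℕ} (hm : G.m₁ hl ≤ m) :
    2 * (genusFF K F : ℤ) + 4 ≤ Divisor.degree (m • G.D₀) := by
  rw [G.degree_smul_D₀]
  have h1 : G.mNum ≤ m := GraphSeed.mNum_le hl hm
  have h3 : (m : ℤ) ≤ m * Divisor.degree G.D₀ := by
    have := G.degree_D₀_pos
    have hm0 : (0 : ℤ) ≤ m := Int.natCast_nonneg m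
    nlinarith
  unfold GraphSeed.mNum at h1
  have h1' : ((2 * (genusFF K F + ∑ c, genusFF k (Fk c)) + 2 * Fintype.card ι + 4 : ℕ) : ℤ) ≤
      m := by exact_mod_cast h1
  push_cast at h1'
  have h4 : (0 : ℤ) ≤ ∑ c, (genusFF k (Fk c) : ℤ) :=
    Finset.sum_nonneg fun c _ => Int.natCast_nonneg _
  have h5 := Int.natCast_nonneg (Fintype.card ι)
  linarith

/-- `ℓ(m D₀ + P) = ℓ(m D₀) + 1`. -/
theorem GraphSeed.ell_add_single [Nonempty κ] (hl : G.HasLift) {m : ℕ} (hm : G.m₁ hl ≤ m)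
    (P : Place K F) : ell (m • G.D₀ + Finsupp.single P 1) = ell (m • G.D₀) + 1 := by
  obtain ⟨c₀⟩ := ‹Nonempty κ›
  haveI : Nonempty κ := ⟨c₀⟩
  have hb := GraphSeed.big₀ hl hm
  have h1 := ell_of_degree_gt (G.S c₀).hF (D := m • G.D₀) (by omega)
  have h2 := ell_of_degree_gt (G.S c₀).hF (D := m • G.D₀ + Finsupp.single P 1)
    (by rw [map_add, degree_single_one (G.S c₀).hF]; omega)
  rw [map_add, degree_single_one (G.S c₀).hF] at h2
  have : (ell (m • G.D₀ + Finsupp.single P 1) : ℤ) = (ell (m • G.D₀) : ℤ) + 1 := by omega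
  exact_mod_cast this

/-- `ℓ(m D₀) = ℓ(m D₀ - P) + 1`. -/
theorem GraphSeed.ell_sub_single [Nonempty κ] (hl : G.HasLift) {m : ℕ} (hm : G.m₁ hl ≤ m)
    (P : Place K F) : ell (m • G.D₀) = ell (m • G.D₀ - Finsupp.single P 1) + 1 := by
  obtain ⟨c₀⟩ := ‹Nonempty κ›
  haveI : Nonempty κ := ⟨c₀⟩
  have hb := GraphSeed.big₀ hl hm
  have h1 := ell_of_degree_gt (G.S c₀).hF (D := m • G.D₀) (by omega)
  have h2 := ell_of_degree_gt (G.S c₀).hF (D := m • G.D₀ - Finsupp.single P 1)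
    (by rw [map_sub, degree_single_one (G.S c₀).hF]; omega)
  rw [map_sub, degree_single_one (G.S c₀).hF] at h2
  have : (ell (m • G.D₀) : ℤ) = (ell (m • G.D₀ - Finsupp.single P 1) : ℤ) + 1 := by omega
  exact_mod_cast this

end Seed

end Fermat.Agent.BadRedG
end
end MergeWrap_Lib_BadRed_Graph_Deuring_Thresh
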