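import Mathlib
import Fermat.Agent.MU.Lib.BadRed.Graph.RedSpaceG
import Fermat.Agent.MU.Lib.BadRed.Graph.Deuring.TypeDef
import Fermat.Agent.MU.Lib.BadRed.Nodal.Deuring2.TypeDual

section MergeWrap_Lib_BadRed_Graph_Deuring_TypeDual -- from Lib/BadRed/Graph/Deuring/TypeDual.lean

set_option autoImplicit false
set_option linter.style.haveILetI false
set_option linter.unusedSectionVars false

/-!
# Cluster G, graph Deuring construction, step S3: the DUAL characterisation of the type of a place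

Port of `Nodal/Deuring2/TypeDual.lean` (cluster T) to a `GraphSeed`.  Everything is stated on
WITNESSES (no reduction map `r`).  For a place `P` of `F`:

* a witness of type `(c, Q)` (`Q` a place of the component `c`) is `f ∈ 𝔏(m₁ D₀ + P)` with
  `red_c f ≠ 0`, `ord_Q (red_c f) = - m₁ R_c(Q) - 1`;
* a witness of type (N) is `f ∈ 𝔏(m₁ D₀ + P)` with `red_c f ∈ L(m₁ R_c)` for all `c`,
  `redAll f ∉ graphRR (m₁ R)`.

`G.TDBig m` : `m` is large (`2 g_c + 2 #ι + 1 < deg (m R_c)` and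
`dim V(m D₀ - P) + 1 = dim graphRR (m R)`); `GraphSeed.tdBig_of_V_eq` reduces it to (LIFT)
`V(m D₀) = graphRR (m R)` and degrees.

`G.rrSub m c Q = {y ∈ graphRR (m R) | y_c ∈ L(m R_c - Q)}`.

Results (`hm : G.TDBig m`):
* `td_le`, `td_eq` : type `(c, Q)` ⇒ `V(m D₀ - P) = rrSub m c Q`;
* `td_smooth` : type `(c, Q)` ⇒ `Q` is not a branch of a node;
* `td_zero`, `td_unit`, `td_node_unit` : the existence statements of `TypeDef.lean` for a place of
  type `(c, Q)`;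
* `td_eqN`, `td_unitN` : type (N);
* `td_excl` : a pole witness and a unit witness at the same `(c, Q)` exclude each other; hence
  `td_unique`, `td_notN`;
* `td_supp`, `td_suppN` : the places of `supp D₀`.
-/

noncomputable section

open AlgebraicCurve Fermat.Agent.RR Fermat.Agent.Deuring

namespace Fermat.Agent.BadRedG

open Fermat.Agent.BadRed

variable {K F k : Type*} [Field K] [Field F] [Algebra K F] [Field k]
  {κ : Type*} {Fk : κ → Type*} [∀ c, Field (Fk c)] [∀ c, Algebra k (Fk c)] {ι : Type*}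

/-! ### branches of the nodes on a component -/

section Core

variable (C : GraphCore K F k κ Fk ι)

theorem GraphCore.td_not_isSmoothPt_s₁ (i : ι) : ¬ C.IsSmoothPt (C.src i) (C.s₁ i) :=
  fun h => h.1 i rfl

theorem GraphCore.td_not_isSmoothPt_s₂ (i : ι) : ¬ C.IsSmoothPt (C.tgt i) (C.s₂ i) :=
  fun h => h.2 i rfl

/-- a point which is not smooth is a branch of a node. -/
theorem GraphCore.td_not_isSmoothPt_iff {c : κ} {Q : Place k (Fk c)} :
    ¬ C.IsSmoothPt c Q ↔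
      (∃ i, (⟨c, Q⟩ : Σ c, Place k (Fk c)) = ⟨C.src i, C.s₁ i⟩) ∨
        ∃ i, (⟨c, Q⟩ : Σ c, Place k (Fk c)) = ⟨C.tgt i, C.s₂ i⟩ := by
  unfold GraphCore.IsSmoothPt
  rw [not_and_or]
  push Not
  rfl

/-- the other branch of a node: every tuple of a `graphRR` takes the same value there. -/
theorem GraphCore.td_exists_other {c : κ} {Q : Place k (Fk c)}
    (hQ : ¬ C.IsSmoothPt c Q) :
    ∃ (c' : κ) (Q' : Place k (Fk c')), c' ≠ c ∧
      ∀ (R : ∀ c, Divisor k (Fk c)) (y : ∀ c, Fk c), y ∈ graphRR C.src C.tgt C.s₁ C.s₂ R →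
        ∃ e : k, ValAt Q (y c) e ∧ ValAt Q' (y c') e := by
  rcases (C.td_not_isSmoothPt_iff).mp hQ with ⟨i, hi⟩ | ⟨i, hi⟩
  · obtain ⟨rfl, h2⟩ := Sigma.mk.inj_iff.mp hi
    obtain rfl : Q = C.s₁ i := eq_of_heq h2
    exact ⟨C.tgt i, C.s₂ i, (C.src_ne_tgt i).symm, fun R y hy => hy.2 i⟩
  · obtain ⟨rfl, h2⟩ := Sigma.mk.inj_iff.mp hi
    obtain rfl : Q = C.s₂ i := eq_of_heq h2
    refine ⟨C.src i, C.s₁ i, C.src_ne_tgt i, fun R y hy => ?_⟩
    obtain ⟨e, h1, h2⟩ := hy.2 i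
    exact ⟨e, h2, h1⟩

/-- the branches on the component `c` inject into `ι ⊕ ι`. -/
theorem GraphCore.td_exists_branch_injective (c : κ) :
    ∃ φ : {Q : Place k (Fk c) // ¬ C.IsSmoothPt c Q} → ι ⊕ ι, Function.Injective φ := by
  classical
  have key : ∀ x : {Q : Place k (Fk c) // ¬ C.IsSmoothPt c Q}, ∃ j : ι ⊕ ι,
      (⟨c, x.1⟩ : Σ c, Place k (Fk c)) =
        Sum.elim (fun i => ⟨C.src i, C.s₁ i⟩) (fun i => ⟨C.tgt i, C.s₂ i⟩) j := by
    intro x
    rcases (C.td_not_isSmoothPt_iff).mp x.2 with ⟨i, hi⟩ | ⟨i, hi⟩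
    · exact ⟨Sum.inl i, hi⟩
    · exact ⟨Sum.inr i, hi⟩
  choose φ hφ using key
  refine ⟨φ, fun x x' h => ?_⟩
  have h1 := hφ x
  rw [h, ← hφ x'] at h1
  obtain ⟨-, h2⟩ := Sigma.mk.inj_iff.mp h1
  exact Subtype.ext (eq_of_heq h2)

theorem GraphCore.td_finite_branch [Finite ι] (c : κ) :
    Finite {Q : Place k (Fk c) // ¬ C.IsSmoothPt c Q} := by
  obtain ⟨φ, hφ⟩ := C.td_exists_branch_injective c
  exact Finite.of_injective φ hφ

theorem GraphCore.td_card_branch_le [Fintype ι] (c : κ)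
    [Fintype {Q : Place k (Fk c) // ¬ C.IsSmoothPt c Q}] :
    Fintype.card {Q : Place k (Fk c) // ¬ C.IsSmoothPt c Q} ≤ 2 * Fintype.card ι := by
  obtain ⟨φ, hφ⟩ := C.td_exists_branch_injective c
  have := Fintype.card_le_of_injective φ hφ
  rw [Fintype.card_sum] at this
  omega

/-- **interpolation on the component `c`**: the value `v` at all the branches on `c`, and EXACT
order at finitely many smooth points. -/
theorem GraphCore.td_exists_interp [Fintype ι] [Infinite k] (c : κ) (R : Divisor k (Fk c))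
    (hR : ∀ Q, ¬ C.IsSmoothPt c Q → R Q = 0) (T : Finset (Place k (Fk c)))
    (hT : ∀ Q ∈ T, C.IsSmoothPt c Q)
    (hdeg : 2 * (genusFF k (Fk c) : ℤ) + 2 * (Fintype.card ι : ℤ) < Divisor.degree R) (v : k) :
    ∃ a ∈ riemannRochSpace R, a ≠ 0 ∧ (∀ Q, ¬ C.IsSmoothPt c Q → ValAt Q a v) ∧
      ∀ Q ∈ T, Q.ord a = -R Q := by
  classical
  haveI := C.td_finite_branch c
  haveI : Fintype {Q : Place k (Fk c) // ¬ C.IsSmoothPt c Q} := Fintype.ofFinite _
  have hcard := C.td_card_branch_le c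
  obtain ⟨a, ha, ha0, hac, haQ⟩ := exists_interpolation_exact (C.S c).hFk
    (fun x : {Q : Place k (Fk c) // ¬ C.IsSmoothPt c Q} => x.1) Subtype.val_injective R
    (fun x => hR x.1 x.2) T (fun Q hQ x h => x.2 (h ▸ hT Q hQ))
    (by
      have : ((Fintype.card {Q : Place k (Fk c) // ¬ C.IsSmoothPt c Q} : ℕ) : ℤ) ≤
          2 * (Fintype.card ι : ℤ) := by exact_mod_cast hcard
      omega) (fun _ => v)
  exact ⟨a, ha, ha0, fun Q hQ => hac ⟨Q, hQ⟩, haQ⟩

/-- replacing the component `c` of a tuple: values at the branches. -/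
theorem GraphCore.td_valAt_update [DecidableEq κ] (y₀ : ∀ c, Fk c) (c : κ) (b : Fk c)
    (hv : ∀ Q, ¬ C.IsSmoothPt c Q → ∀ e, ValAt Q (y₀ c) e → ValAt Q b e)
    (c' : κ) (Q : Place k (Fk c')) (hQ : ¬ C.IsSmoothPt c' Q) (e : k)
    (h : ValAt Q (y₀ c') e) : ValAt Q (Function.update y₀ c b c') e := by
  by_cases hc : c' = c
  · subst hc
    rw [Function.update_self]
    exact hv Q hQ e h
  · rw [Function.update_of_ne hc]
    exact h

/-- replacing the component `c` of a tuple of `graphRR R` by a function of `L(R_c)` with the same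
values at the branches. -/
theorem GraphCore.td_update_mem_graphRR [DecidableEq κ] {R : ∀ c, Divisor k (Fk c)}
    {y₀ : ∀ c, Fk c} (hy₀ : y₀ ∈ graphRR C.src C.tgt C.s₁ C.s₂ R) (c : κ) {b : Fk c}
    (hb : b ∈ riemannRochSpace (R c))
    (hv : ∀ Q, ¬ C.IsSmoothPt c Q → ∀ e, ValAt Q (y₀ c) e → ValAt Q b e) :
    Function.update y₀ c b ∈ graphRR C.src C.tgt C.s₁ C.s₂ R := by
  refine ⟨fun c' => ?_, fun i => ?_⟩
  · by_cases hc : c' = c
    · subst hc
      rw [Function.update_self]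
      exact hb
    · rw [Function.update_of_ne hc]
      exact hy₀.1 c'
  · obtain ⟨e, h1, h2⟩ := hy₀.2 i
    exact ⟨e, C.td_valAt_update y₀ c b hv _ _ (C.td_not_isSmoothPt_s₁ i) e h1,
      C.td_valAt_update y₀ c b hv _ _ (C.td_not_isSmoothPt_s₂ i) e h2⟩

/-- the tuple `(0, …, b, …, 0)`, `b ∈ L(R_c)` vanishing at the branches. -/
theorem GraphCore.td_zero_update_mem [DecidableEq κ] {R : ∀ c, Divisor k (Fk c)}
    (c : κ) {b : Fk c} (hb : b ∈ riemannRochSpace (R c))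
    (hv : ∀ Q, ¬ C.IsSmoothPt c Q → ValAt Q b 0) :
    Function.update (0 : ∀ c, Fk c) c b ∈ graphRR C.src C.tgt C.s₁ C.s₂ R := by
  refine C.td_update_mem_graphRR (Submodule.zero_mem _) c hb fun Q hQ e he => ?_
  have he0 : e = 0 := ValAt.unique (f := (0 : Fk c)) he (valAt_zero _)
  rw [he0]
  exact hv Q hQ

/-- the tuple `(1, …, b, …, 1)`, `b ∈ L(R_c)` with the value `1` at the branches. -/
theorem GraphCore.td_one_update_mem [DecidableEq κ] {R : ∀ c, Divisor k (Fk c)}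
    (hR : ∀ c, 0 ≤ R c) (c : κ) {b : Fk c} (hb : b ∈ riemannRochSpace (R c))
    (hv : ∀ Q, ¬ C.IsSmoothPt c Q → ValAt Q b 1) :
    Function.update (1 : ∀ c, Fk c) c b ∈ graphRR C.src C.tgt C.s₁ C.s₂ R := by
  have h1 : (1 : ∀ c, Fk c) ∈ graphRR C.src C.tgt C.s₁ C.s₂ R :=
    ⟨fun c' => td_one_mem (hR c'), fun i => ⟨1, td_valAt_one _, td_valAt_one _⟩⟩
  refine C.td_update_mem_graphRR h1 c hb fun Q hQ e he => ?_
  have he1 : e = 1 := ValAt.unique (f := (1 : Fk c)) he (td_valAt_one _)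
  rw [he1]
  exact hv Q hQ

/-- `graphRR R` is finite dimensional. -/
theorem GraphCore.td_finite_graphRR [Finite κ] (R : ∀ c, Divisor k (Fk c)) :
    Module.Finite k (graphRR C.src C.tgt C.s₁ C.s₂ R) := by
  haveI : ∀ c, Module.Finite k (riemannRochSpace (R c)) := fun c =>
    finite_riemannRochSpace (C.S c).hFk (R c)
  let φ : graphRR C.src C.tgt C.s₁ C.s₂ R →ₗ[k] (∀ c, riemannRochSpace (R c)) :=
    LinearMap.pi fun c =>
      ((LinearMap.proj c).comp (graphRR C.src C.tgt C.s₁ C.s₂ R).subtype).codRestrict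
        (riemannRochSpace (R c)) fun y => y.2.1 c
  have hφ : Function.Injective φ := by
    intro y y' h
    apply Subtype.ext
    funext c
    exact congrArg Subtype.val (congrFun h c)
  exact Module.Finite.of_injective φ hφ

end Core

/-! ### the seed: products with a witness -/

section Seed

variable [Fintype κ] [Fintype ι] (G : GraphSeed K F k κ Fk ι)

theorem GraphSeed.td_smul_add_apply (m₁ m : ℕ) (c : κ) (Q : Place k (Fk c)) :
    ((m₁ + m) • G.R c) Q = (m₁ • G.R c) Q + (m • G.R c) Q := by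
  rw [add_smul, Finsupp.add_apply]

theorem GraphSeed.td_smul_R_nonneg (m : ℕ) (c : κ) : 0 ≤ m • G.R c :=
  nsmul_nonneg (G.R_nonneg c) m

/-- `m R_c` vanishes at the branches of the nodes. -/
theorem GraphSeed.td_smul_R_branch (m : ℕ) {c : κ} {Q : Place k (Fk c)}
    (hQ : ¬ G.toGraphCore.IsSmoothPt c Q) : (m • G.R c) Q = 0 := by
  rcases (G.toGraphCore.td_not_isSmoothPt_iff).mp hQ with ⟨i, hi⟩ | ⟨i, hi⟩
  · obtain ⟨rfl, h2⟩ := Sigma.mk.inj_iff.mp hi
    obtain rfl : Q = G.s₁ i := eq_of_heq h2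
    rw [Finsupp.smul_apply, G.R_node₁ i, smul_zero]
  · obtain ⟨rfl, h2⟩ := Sigma.mk.inj_iff.mp hi
    obtain rfl : Q = G.s₂ i := eq_of_heq h2
    rw [Finsupp.smul_apply, G.R_node₂ i, smul_zero]

/-- `{y ∈ graphRR (m R) | y_c ∈ L(m R_c - Q)}`. -/
def GraphSeed.tdRRSub (m : ℕ) (c : κ) (Q : Place k (Fk c)) : Submodule k (∀ c, Fk c) :=
  graphRR G.src G.tgt G.s₁ G.s₂ (fun c' => m • G.R c') ⊓
    (riemannRochSpace (m • G.R c - Finsupp.single Q 1)).comap (LinearMap.proj c)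

theorem GraphSeed.mem_tdRRSub_iff {m : ℕ} {c : κ} {Q : Place k (Fk c)} {y : ∀ c, Fk c} :
    y ∈ G.tdRRSub m c Q ↔ y ∈ graphRR G.src G.tgt G.s₁ G.s₂ (fun c' => m • G.R c') ∧
      y c ∈ riemannRochSpace (m • G.R c - Finsupp.single Q 1) :=
  Iff.rfl

theorem GraphSeed.tdRRSub_le (m : ℕ) (c : κ) (Q : Place k (Fk c)) :
    G.tdRRSub m c Q ≤ graphRR G.src G.tgt G.s₁ G.s₂ (fun c' => m • G.R c') :=
  inf_le_left

/-- the reduction of the product of `f ∈ 𝔏(m₁ D₀ + P)` and `g ∈ 𝔏(m D₀ - P)`. -/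
theorem GraphSeed.td_mul_seed {m₁ m : ℕ} {P : Place K F} {f g : F}
    (hf : G.toGraphCore.IsInt (m₁ • G.D₀ + Finsupp.single P 1) f)
    (hg : G.toGraphCore.IsInt (m • G.D₀ - Finsupp.single P 1) g) :
    (fun c => (G.S c).red f * (G.S c).red g) ∈
      graphRR G.src G.tgt G.s₁ G.s₂ (fun c => (m₁ + m) • G.R c) := by
  have h := GraphCore.IsInt.mul G.toGraphCore hf hg
  have hD : m₁ • G.D₀ + Finsupp.single P 1 + (m • G.D₀ - Finsupp.single P 1) =
      (m₁ + m) • G.D₀ := by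
    rw [add_smul]
    abel
  rw [hD] at h
  have h1 := G.seed (m₁ + m) (f * g) h.1 h.2
  have e : (fun c => (G.S c).red (f * g)) = fun c => (G.S c).red f * (G.S c).red g :=
    funext fun c => (G.S c).red_mul (hf.2 c) (hg.2 c)
  rwa [e] at h1

theorem GraphSeed.td_mul_seed_mem {m₁ m : ℕ} {P : Place K F} {f g : F}
    (hf : G.toGraphCore.IsInt (m₁ • G.D₀ + Finsupp.single P 1) f)
    (hg : G.toGraphCore.IsInt (m • G.D₀ - Finsupp.single P 1) g) (c : κ) :
    (G.S c).red f * (G.S c).red g ∈ riemannRochSpace ((m₁ + m) • G.R c) :=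
  (G.td_mul_seed hf hg).1 c

theorem GraphSeed.td_isInt_of_sub {m : ℕ} {P : Place K F} {g : F}
    (hg : G.toGraphCore.IsInt (m • G.D₀ - Finsupp.single P 1) g) :
    G.toGraphCore.IsInt (m • G.D₀) g :=
  GraphCore.IsInt.mono G.toGraphCore (td_sub_single_le _ P) hg

theorem GraphSeed.td_seed_of_sub {m : ℕ} {P : Place K F} {g : F}
    (hg : G.toGraphCore.IsInt (m • G.D₀ - Finsupp.single P 1) g) :
    G.toGraphCore.redAll g ∈ graphRR G.src G.tgt G.s₁ G.s₂ (fun c => m • G.R c) :=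
  G.seed m g (G.td_isInt_of_sub hg).1 hg.2

theorem GraphSeed.td_seed_of_sub_mem {m : ℕ} {P : Place K F} {g : F}
    (hg : G.toGraphCore.IsInt (m • G.D₀ - Finsupp.single P 1) g) (c : κ) :
    (G.S c).red g ∈ riemannRochSpace (m • G.R c) :=
  (G.td_seed_of_sub hg).1 c

/-- lifting an element of `V(D)`. -/
theorem GraphSeed.td_lift [Nonempty κ] {D : Divisor K F} {y : ∀ c, Fk c}
    (hy : y ∈ G.toGraphCore.V D) :
    ∃ g : F, G.toGraphCore.IsInt D g ∧ ∀ c, (G.S c).red g = y c := by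
  obtain ⟨g, hg, hge⟩ := (G.toGraphCore.mem_V_iff _).mp hy
  exact ⟨g, hg, fun c => congrFun hge c⟩

/-! ### the threshold -/

/-- `m` is large enough for the dual characterisation: degrees of the `m R_c`, and
`dim V(m D₀ - P) + 1 = dim graphRR (m R)`. -/
structure GraphSeed.TDBig (m : ℕ) : Prop where
  deg : ∀ c, 2 * (genusFF k (Fk c) : ℤ) + 2 * (Fintype.card ι : ℤ) + 1 <
    Divisor.degree (m • G.R c)
  finrank_sub : ∀ P : Place K F,
    Module.finrank k (G.toGraphCore.V (m • G.D₀ - Finsupp.single P 1)) + 1 =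
      Module.finrank k (graphRR G.src G.tgt G.s₁ G.s₂ (fun c => m • G.R c))

variable {G}

/-- the threshold from (LIFT) `V(m D₀) = graphRR (m R)` and degrees. -/
theorem GraphSeed.tdBig_of_V_eq [Nonempty κ] {m : ℕ}
    (hV : G.toGraphCore.V (m • G.D₀) = graphRR G.src G.tgt G.s₁ G.s₂ (fun c => m • G.R c))
    (hdeg₀ : 2 * (genusFF K F : ℤ) < Divisor.degree (m • G.D₀))
    (hdeg : ∀ c, 2 * (genusFF k (Fk c) : ℤ) + 2 * (Fintype.card ι : ℤ) + 1 <
      Divisor.degree (m • G.R c)) : G.TDBig m := by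
  obtain ⟨c₀⟩ := ‹Nonempty κ›
  haveI : Nonempty κ := ⟨c₀⟩
  refine ⟨hdeg, fun P => ?_⟩
  have hF : IsRRField K F := (G.S c₀).hF
  rw [← hV, G.toGraphCore.finrank_V, G.toGraphCore.finrank_V]
  have hd : Divisor.degree (m • G.D₀ - Finsupp.single P 1) = Divisor.degree (m • G.D₀) - 1 := by
    rw [map_sub, degree_single_one hF]
  have h1 : (ell (m • G.D₀) : ℤ) = Divisor.degree (m • G.D₀) + 1 - (genusFF K F : ℤ) :=
    ell_of_degree_gt hF (by omega)
  have h2 : (ell (m • G.D₀ - Finsupp.single P 1) : ℤ) =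
      Divisor.degree (m • G.D₀ - Finsupp.single P 1) + 1 - (genusFF K F : ℤ) :=
    ell_of_degree_gt hF (by rw [hd]; omega)
  rw [hd] at h2
  have : ((ell (m • G.D₀ - Finsupp.single P 1) + 1 : ℕ) : ℤ) = (ell (m • G.D₀) : ℤ) := by
    push_cast
    omega
  exact_mod_cast this

variable (G)

theorem GraphSeed.td_degree_smul_R (m : ℕ) (c : κ) :
    Divisor.degree (m • G.R c) = m * Divisor.degree (G.R c) := by
  rw [map_nsmul, nsmul_eq_mul]

/-- (LIFT) gives a threshold. -/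
theorem GraphSeed.exists_tdBig [Nonempty κ] (hl : G.HasLift) :
    ∃ m₀ : ℕ, ∀ m, m₀ ≤ m → G.TDBig m := by
  classical
  obtain ⟨m₀, hm₀⟩ := hl
  obtain ⟨c₀⟩ := ‹Nonempty κ›
  haveI : Nonempty κ := ⟨c₀⟩
  obtain ⟨B, hB⟩ : ∃ B : ℕ, B =
      2 * genusFF K F + (∑ c, 2 * genusFF k (Fk c)) + 2 * Fintype.card ι + 2 := ⟨_, rfl⟩
  have hgc : ∀ c, 2 * genusFF k (Fk c) ≤ ∑ c, 2 * genusFF k (Fk c) := fun c =>
    Finset.single_le_sum (f := fun c => 2 * genusFF k (Fk c)) (fun _ _ => Nat.zero_le _)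
      (Finset.mem_univ c)
  have hB0 : 2 * genusFF K F + 2 ≤ B := by omega
  have hBc : ∀ c, 2 * genusFF k (Fk c) + 2 * Fintype.card ι + 2 ≤ B := by
    intro c
    have := hgc c
    omega
  refine ⟨max m₀ B, fun m hm => ?_⟩
  have hm₁ : m₀ ≤ m := le_trans (le_max_left _ _) hm
  have hm₂ : B ≤ m := le_trans (le_max_right _ _) hm
  have hRpos : ∀ c, (1 : ℤ) ≤ Divisor.degree (G.R c) := fun c => G.R_pos c
  have hdegR : ∀ c, (m : ℤ) ≤ Divisor.degree (m • G.R c) := by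
    intro c
    rw [G.td_degree_smul_R]
    have := hRpos c
    nlinarith [Int.natCast_nonneg m]
  refine GraphSeed.tdBig_of_V_eq ?_ ?_ ?_
  · apply le_antisymm
    · intro y hy
      obtain ⟨f, hf, rfl⟩ := (G.toGraphCore.mem_V_iff _).mp hy
      exact G.seed m f hf.1 hf.2
    · intro y hy
      obtain ⟨f, hf, hfy⟩ := hm₀ m hm₁ y hy
      exact (G.toGraphCore.mem_V_iff _).mpr ⟨f, hf, hfy⟩
  · have h1 : Divisor.degree (m • G.D₀) = m * Divisor.degree G.D₀ := by
      rw [map_nsmul, nsmul_eq_mul]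
    have h2 : (1 : ℤ) ≤ Divisor.degree G.D₀ := by
      rw [← G.deg_eq]
      calc (1 : ℤ) ≤ Divisor.degree (G.R c₀) := hRpos c₀
        _ ≤ ∑ c, Divisor.degree (G.R c) :=
          Finset.single_le_sum (f := fun c => Divisor.degree (G.R c))
            (fun c _ => le_trans zero_le_one (hRpos c)) (Finset.mem_univ c₀)
    rw [h1]
    have h3 : ((2 * genusFF K F + 2 : ℕ) : ℤ) ≤ (m : ℤ) := by exact_mod_cast le_trans hB0 hm₂
    push_cast at h3
    nlinarith [Int.natCast_nonneg m]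
  · intro c
    have h1 := hdegR c
    have h3 : ((2 * genusFF k (Fk c) + 2 * Fintype.card ι + 2 : ℕ) : ℤ) ≤ (m : ℤ) := by
      exact_mod_cast le_trans (hBc c) hm₂
    push_cast at h3
    omega

/-! ### the dual of a pole witness -/

/-- **S3, inclusion**: if `P` has a witness of type `(c, Q)`, then
`V(m D₀ - P) ⊂ {y ∈ graphRR (m R) | y_c ∈ L(m R_c - Q)}`, for every `m`. -/
theorem GraphSeed.td_le {m₁ : ℕ} {P : Place K F} {c : κ} {Q : Place k (Fk c)} {f : F}
    (hf : G.toGraphCore.IsInt (m₁ • G.D₀ + Finsupp.single P 1) f) (hne : (G.S c).red f ≠ 0)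
    (hord : Q.ord ((G.S c).red f) = -((m₁ • G.R c) Q) - 1) (m : ℕ) :
    G.toGraphCore.V (m • G.D₀ - Finsupp.single P 1) ≤ G.tdRRSub m c Q := by
  haveI : Nonempty κ := ⟨c⟩
  intro y hy
  obtain ⟨g, hg, rfl⟩ := (G.toGraphCore.mem_V_iff _).mp hy
  refine ⟨G.td_seed_of_sub hg, ?_⟩
  show (G.S c).red g ∈ riemannRochSpace (m • G.R c - Finsupp.single Q 1)
  refine td_mem_sub_single (G.td_seed_of_sub_mem hg c) ?_
  rcases eq_or_ne ((G.S c).red g) 0 with h0 | h0
  · exact Or.inl h0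
  right
  have hprod := G.td_mul_seed_mem hf hg c
  have hne' : (G.S c).red f * (G.S c).red g ≠ 0 := mul_ne_zero hne h0
  have := ((mem_riemannRochSpace_iff.mp hprod) Q).resolve_left hne'
  rw [Q.ord_mul hne h0, G.td_smul_add_apply, hord] at this
  omega

/-- a proper subspace of `graphRR (m R)` containing `V(m D₀ - P)` is equal to it. -/
theorem GraphSeed.td_eq_of_le {m : ℕ} (hm : G.TDBig m) (P : Place K F)
    {H : Submodule k (∀ c, Fk c)} (hle : G.toGraphCore.V (m • G.D₀ - Finsupp.single P 1) ≤ H)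
    (hH : H ≤ graphRR G.src G.tgt G.s₁ G.s₂ (fun c => m • G.R c)) {z : ∀ c, Fk c}
    (hz : z ∈ graphRR G.src G.tgt G.s₁ G.s₂ (fun c => m • G.R c)) (hzH : z ∉ H) :
    G.toGraphCore.V (m • G.D₀ - Finsupp.single P 1) = H := by
  haveI := G.toGraphCore.td_finite_graphRR (fun c => m • G.R c)
  haveI : Module.Finite k H := Submodule.finiteDimensional_of_le hH
  have hlt : H < graphRR G.src G.tgt G.s₁ G.s₂ (fun c => m • G.R c) :=
    lt_of_le_of_ne hH fun h => hzH (h ▸ hz)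
  have h1 := Submodule.finrank_lt_finrank_of_lt hlt
  have h2 := hm.finrank_sub P
  exact Submodule.eq_of_le_of_finrank_le hle (by omega)

/-- an element of `graphRR (m R)` outside `tdRRSub m c Q`. -/
theorem GraphSeed.td_exists_notMem [Infinite k] {m : ℕ} (hm : G.TDBig m) (c : κ)
    (Q : Place k (Fk c)) :
    ∃ z ∈ graphRR G.src G.tgt G.s₁ G.s₂ (fun c => m • G.R c), z ∉ G.tdRRSub m c Q := by
  classical
  by_cases hQ : G.toGraphCore.IsSmoothPt c Q
  · obtain ⟨a, ha, ha0, hac, haQ⟩ := G.toGraphCore.td_exists_interp c (m • G.R c)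
      (fun Q' hQ' => G.td_smul_R_branch m hQ') {Q} (fun Q' hQ' => by
        rw [Finset.mem_singleton] at hQ'
        rw [hQ']
        exact hQ) (by have := hm.deg c; omega) 0
    refine ⟨Function.update 0 c a, G.toGraphCore.td_zero_update_mem c ha hac, fun h => ?_⟩
    have h2 : Function.update (0 : ∀ c, Fk c) c a c ∈
        riemannRochSpace (m • G.R c - Finsupp.single Q 1) := h.2
    rw [Function.update_self] at h2
    exact rx_notMem_of_ord_eq ha0 (haQ Q (Finset.mem_singleton_self Q)) h2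
  · refine ⟨1, ⟨fun c' => td_one_mem (G.td_smul_R_nonneg m c'),
      fun i => ⟨1, td_valAt_one _, td_valAt_one _⟩⟩, fun h => ?_⟩
    have h2 : (1 : Fk c) ∈ riemannRochSpace (m • G.R c - Finsupp.single Q 1) := h.2
    have := ((mem_riemannRochSpace_iff.mp h2) Q).resolve_left one_ne_zero
    rw [Finsupp.sub_apply, Finsupp.single_eq_same, G.td_smul_R_branch m hQ, Place.ord_one] at this
    omega

/-- **S3, equality**: if `P` has a witness of type `(c, Q)`, then
`V(m D₀ - P) = {y ∈ graphRR (m R) | y_c ∈ L(m R_c - Q)}` for `m` large. -/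
theorem GraphSeed.td_eq [Infinite k] {m₁ : ℕ} {P : Place K F} {c : κ} {Q : Place k (Fk c)}
    {f : F} (hf : G.toGraphCore.IsInt (m₁ • G.D₀ + Finsupp.single P 1) f)
    (hne : (G.S c).red f ≠ 0) (hord : Q.ord ((G.S c).red f) = -((m₁ • G.R c) Q) - 1)
    {m : ℕ} (hm : G.TDBig m) :
    G.toGraphCore.V (m • G.D₀ - Finsupp.single P 1) = G.tdRRSub m c Q := by
  obtain ⟨z, hz, hzH⟩ := G.td_exists_notMem hm c Q
  exact G.td_eq_of_le hm P (G.td_le hf hne hord m) (G.tdRRSub_le m c Q) hz hzH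

/-- **S3**: a witness of type `(c, Q)`: `Q` is not a branch of a node. -/
theorem GraphSeed.td_smooth [Infinite k] {m₁ : ℕ} {P : Place K F} {c : κ} {Q : Place k (Fk c)}
    {f : F} (hf : G.toGraphCore.IsInt (m₁ • G.D₀ + Finsupp.single P 1) f)
    (hne : (G.S c).red f ≠ 0) (hord : Q.ord ((G.S c).red f) = -((m₁ • G.R c) Q) - 1)
    {m : ℕ} (hm : G.TDBig m) : G.toGraphCore.IsSmoothPt c Q := by
  classical
  haveI : Nonempty κ := ⟨c⟩
  by_contra hQ
  have hV := G.td_eq hf hne hord hm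
  obtain ⟨c', Q', hc', hnode⟩ := G.toGraphCore.td_exists_other hQ
  -- the branches on `c`
  haveI := G.toGraphCore.td_finite_branch c
  haveI : Fintype {Q : Place k (Fk c) // ¬ G.toGraphCore.IsSmoothPt c Q} := Fintype.ofFinite _
  have hcard := G.toGraphCore.td_card_branch_le c
  set T : Finset (Place k (Fk c)) := Finset.univ.image
    (fun x : {Q : Place k (Fk c) // ¬ G.toGraphCore.IsSmoothPt c Q} => x.1) with hT
  have hTcard : ((T.card : ℕ) : ℤ) ≤ 2 * (Fintype.card ι : ℤ) := by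
    have h1 : T.card = Fintype.card {Q : Place k (Fk c) // ¬ G.toGraphCore.IsSmoothPt c Q} := by
      rw [hT, Finset.card_image_of_injective _ Subtype.val_injective, Finset.card_univ]
    rw [h1]
    exact_mod_cast hcard
  have hmemT : ∀ Q'' : Place k (Fk c), ¬ G.toGraphCore.IsSmoothPt c Q'' → Q'' ∈ T := fun Q'' h =>
    Finset.mem_image.mpr ⟨⟨Q'', h⟩, Finset.mem_univ _, rfl⟩
  have hTR : ∀ Q'' ∈ T, (m • G.R c) Q'' = 0 := by
    intro Q'' hQ''
    obtain ⟨x, -, rfl⟩ := Finset.mem_image.mp hQ''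
    exact G.td_smul_R_branch m x.2
  have hdeg := hm.deg c
  obtain ⟨a, ha, han⟩ := rx_exists_exact (G.S c).hFk (m • G.R c - sumPlaces T) Q
    (by rw [map_sub, degree_sumPlaces (G.S c).hFk]; omega)
  obtain ⟨ha0, haord⟩ := rx_ord_eq_of_notMem ha han
  rw [Finsupp.sub_apply, G.td_smul_R_branch m hQ, sumPlaces_apply_of_mem (hmemT Q hQ)] at haord
  have ha' := (mem_riemannRochSpace_sub_sumPlaces_iff hTR a).mp ha
  have haL : a ∈ riemannRochSpace (m • G.R c - Finsupp.single Q 1) := by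
    refine td_mem_sub_single ha'.1 (Or.inr ?_)
    rw [G.td_smul_R_branch m hQ, haord]
    omega
  have hz : Function.update (0 : ∀ c, Fk c) c a ∈
      G.toGraphCore.V (m • G.D₀ - Finsupp.single P 1) := by
    rw [hV]
    refine G.mem_tdRRSub_iff.mpr ⟨G.toGraphCore.td_zero_update_mem c ha'.1 fun Q'' hQ'' =>
      (valAt_zero_right_iff _ _).mpr (ha'.2 _ (hmemT Q'' hQ'')), ?_⟩
    rw [Function.update_self]
    exact haL
  obtain ⟨g, hg, hgy⟩ := G.td_lift hz
  have hga : (G.S c).red g = a := by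
    rw [hgy c, Function.update_self]
  have hgb : (G.S c').red g = 0 := by
    rw [hgy c', Function.update_of_ne hc']
    rfl
  obtain ⟨e, he1, he2⟩ := hnode _ _ (G.td_mul_seed hf hg)
  have he1' : ValAt Q ((G.S c).red f * a) e := by
    rw [← hga]
    exact he1
  have he2' : ValAt Q' (0 : Fk c') e := by
    have : (G.S c').red f * (G.S c').red g = 0 := by rw [hgb, mul_zero]
    rw [← this]
    exact he2
  have he0 : e = 0 := he2'.unique (valAt_zero _)
  rw [he0, valAt_zero_right_iff] at he1'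
  have h1 := he1'.resolve_left (mul_ne_zero hne ha0)
  rw [Q.ord_mul hne ha0, hord, G.td_smul_R_branch m₁ hQ, haord] at h1
  omega

/-! ### exclusion -/

/-- a pole witness at `(c, Q)` and a unit witness at `(c, Q)` exclude each other. -/
theorem GraphSeed.td_excl {m₁ m : ℕ} {P : Place K F} {c : κ} {Q : Place k (Fk c)} {f g : F}
    (hf : G.toGraphCore.IsInt (m₁ • G.D₀ + Finsupp.single P 1) f) (hne : (G.S c).red f ≠ 0)
    (hord : Q.ord ((G.S c).red f) = -((m₁ • G.R c) Q) - 1)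
    (hg : G.toGraphCore.IsInt (m • G.D₀ - Finsupp.single P 1) g) (hgne : (G.S c).red g ≠ 0)
    (hgord : Q.ord ((G.S c).red g) = -((m • G.R c) Q)) : False := by
  have hprod := G.td_mul_seed_mem hf hg c
  have := ((mem_riemannRochSpace_iff.mp hprod) Q).resolve_left (mul_ne_zero hne hgne)
  rw [Q.ord_mul hne hgne, G.td_smul_add_apply, hord, hgord] at this
  omega

/-! ### the existence statements for a place of type `(c, Q)` -/

/-- `zero`. -/
theorem GraphSeed.td_zero_big [Infinite k] {m₁ : ℕ} {P : Place K F} {c : κ}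
    {Q : Place k (Fk c)} {f : F}
    (hf : G.toGraphCore.IsInt (m₁ • G.D₀ + Finsupp.single P 1) f) (hne : (G.S c).red f ≠ 0)
    (hord : Q.ord ((G.S c).red f) = -((m₁ • G.R c) Q) - 1) {m : ℕ} (hm : G.TDBig m) :
    ∃ g : F, G.toGraphCore.IsInt (m • G.D₀ - Finsupp.single P 1) g ∧
      (G.S c).red g ≠ 0 ∧ Q.ord ((G.S c).red g) = -((m • G.R c) Q) + 1 := by
  classical
  haveI : Nonempty κ := ⟨c⟩
  have hQ := G.td_smooth hf hne hord hm
  have hV := G.td_eq hf hne hord hm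
  have hdeg := hm.deg c
  obtain ⟨a, ha, ha0, hac, haQ⟩ := G.toGraphCore.td_exists_interp c
    (m • G.R c - Finsupp.single Q 1) (fun Q' hQ' => by
      have hQQ' : Q ≠ Q' := fun h => hQ' (h ▸ hQ)
      rw [Finsupp.sub_apply, G.td_smul_R_branch m hQ', Finsupp.single_apply, if_neg hQQ',
        sub_zero])
    {Q} (fun Q' hQ' => by
      rw [Finset.mem_singleton] at hQ'
      rw [hQ']
      exact hQ)
    (by rw [map_sub, degree_single_one (G.S c).hFk]; omega) 0
  have hz : Function.update (0 : ∀ c, Fk c) c a ∈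
      G.toGraphCore.V (m • G.D₀ - Finsupp.single P 1) := by
    rw [hV]
    refine G.mem_tdRRSub_iff.mpr ⟨G.toGraphCore.td_zero_update_mem c
      (riemannRochSpace_mono (td_sub_single_le _ Q) ha) hac, ?_⟩
    rw [Function.update_self]
    exact ha
  obtain ⟨g, hg, hgy⟩ := G.td_lift hz
  have hga : (G.S c).red g = a := by
    rw [hgy c, Function.update_self]
  refine ⟨g, hg, by rw [hga]; exact ha0, ?_⟩
  rw [hga, haQ Q (Finset.mem_singleton_self Q), Finsupp.sub_apply, Finsupp.single_eq_same]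
  ring

/-- an element `(0, …, a, …, 0)` of `tdRRSub m c₀ Q₀` with exact order at the smooth point
`(c', Q') ≠ (c₀, Q₀)`. -/
theorem GraphSeed.td_exists_unit [Infinite k] {m : ℕ} (hm : G.TDBig m) (c₀ : κ)
    (Q₀ : Place k (Fk c₀)) (c' : κ) (Q' : Place k (Fk c'))
    (hQ' : G.toGraphCore.IsSmoothPt c' Q')
    (hQQ' : (⟨c', Q'⟩ : Σ c, Place k (Fk c)) ≠ ⟨c₀, Q₀⟩) :
    ∃ y ∈ G.tdRRSub m c₀ Q₀, y c' ≠ 0 ∧ Q'.ord (y c') = -((m • G.R c') Q') := by
  classical
  have hdeg := hm.deg c'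
  have hT : ∀ Q'' ∈ ({Q'} : Finset (Place k (Fk c'))), G.toGraphCore.IsSmoothPt c' Q'' := by
    intro Q'' hQ''
    rw [Finset.mem_singleton] at hQ''
    rw [hQ'']
    exact hQ'
  by_cases hc : c' = c₀
  · subst hc
    have hQne : Q' ≠ Q₀ := fun h => hQQ' (by rw [h])
    by_cases hQ₀ : G.toGraphCore.IsSmoothPt c' Q₀
    · obtain ⟨a, ha, ha0, hac, haQ⟩ := G.toGraphCore.td_exists_interp c'
        (m • G.R c' - Finsupp.single Q₀ 1) (fun Q'' hQ'' => by
          have hne : Q₀ ≠ Q'' := fun h => hQ'' (h ▸ hQ₀)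
          rw [Finsupp.sub_apply, G.td_smul_R_branch m hQ'', Finsupp.single_apply, if_neg hne,
            sub_zero])
        {Q'} hT (by rw [map_sub, degree_single_one (G.S c').hFk]; omega) 0
      refine ⟨Function.update 0 c' a, G.mem_tdRRSub_iff.mpr ⟨G.toGraphCore.td_zero_update_mem c'
        (riemannRochSpace_mono (td_sub_single_le _ Q₀) ha) hac, ?_⟩, ?_, ?_⟩
      · rw [Function.update_self]
        exact ha
      · rw [Function.update_self]
        exact ha0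
      · rw [Function.update_self, haQ Q' (Finset.mem_singleton_self Q'), Finsupp.sub_apply,
          Finsupp.single_apply, if_neg (Ne.symm hQne), sub_zero]
    · obtain ⟨a, ha, ha0, hac, haQ⟩ := G.toGraphCore.td_exists_interp c' (m • G.R c')
        (fun Q'' hQ'' => G.td_smul_R_branch m hQ'') {Q'} hT (by omega) 0
      refine ⟨Function.update 0 c' a,
        G.mem_tdRRSub_iff.mpr ⟨G.toGraphCore.td_zero_update_mem c' ha hac, ?_⟩, ?_, ?_⟩
      · rw [Function.update_self]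
        refine td_mem_sub_single ha ?_
        rcases (valAt_zero_right_iff _ _).mp (hac Q₀ hQ₀) with h0 | h0
        · exact Or.inl h0
        · right
          rw [G.td_smul_R_branch m hQ₀]
          have h0' : 0 < Q₀.ord a := h0
          omega
      · rw [Function.update_self]
        exact ha0
      · rw [Function.update_self]
        exact haQ Q' (Finset.mem_singleton_self Q')
  · obtain ⟨a, ha, ha0, hac, haQ⟩ := G.toGraphCore.td_exists_interp c' (m • G.R c')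
      (fun Q'' hQ'' => G.td_smul_R_branch m hQ'') {Q'} hT (by omega) 0
    refine ⟨Function.update 0 c' a,
      G.mem_tdRRSub_iff.mpr ⟨G.toGraphCore.td_zero_update_mem c' ha hac, ?_⟩, ?_, ?_⟩
    · rw [Function.update_of_ne (Ne.symm hc)]
      exact Submodule.zero_mem _
    · rw [Function.update_self]
      exact ha0
    · rw [Function.update_self]
      exact haQ Q' (Finset.mem_singleton_self Q')

/-- `unit` for a place of type `(c, Q)`, at the smooth points `(c', Q') ≠ (c, Q)`. -/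
theorem GraphSeed.td_unit_big [Infinite k] {m₁ : ℕ} {P : Place K F} {c : κ}
    {Q : Place k (Fk c)} {f : F}
    (hf : G.toGraphCore.IsInt (m₁ • G.D₀ + Finsupp.single P 1) f) (hne : (G.S c).red f ≠ 0)
    (hord : Q.ord ((G.S c).red f) = -((m₁ • G.R c) Q) - 1) {m : ℕ} (hm : G.TDBig m)
    (c' : κ) (Q' : Place k (Fk c')) (hQ' : G.toGraphCore.IsSmoothPt c' Q')
    (hQQ' : (⟨c', Q'⟩ : Σ c, Place k (Fk c)) ≠ ⟨c, Q⟩) :
    ∃ g : F, G.toGraphCore.IsInt (m • G.D₀ - Finsupp.single P 1) g ∧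
      (G.S c').red g ≠ 0 ∧ Q'.ord ((G.S c').red g) = -((m • G.R c') Q') := by
  haveI : Nonempty κ := ⟨c⟩
  have hV := G.td_eq hf hne hord hm
  obtain ⟨y, hy, hy0, hyQ⟩ := G.td_exists_unit hm c Q c' Q' hQ' hQQ'
  rw [← hV] at hy
  obtain ⟨g, hg, hgy⟩ := G.td_lift hy
  exact ⟨g, hg, by rw [hgy c']; exact hy0, by rw [hgy c']; exact hyQ⟩

/-- `node_unit` for a place of type `(c, Q)`. -/
theorem GraphSeed.td_node_unit_big [Infinite k] {m₁ : ℕ} {P : Place K F} {c : κ}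
    {Q : Place k (Fk c)} {f : F}
    (hf : G.toGraphCore.IsInt (m₁ • G.D₀ + Finsupp.single P 1) f) (hne : (G.S c).red f ≠ 0)
    (hord : Q.ord ((G.S c).red f) = -((m₁ • G.R c) Q) - 1) {m : ℕ} (hm : G.TDBig m) (i : ι) :
    ∃ g : F, G.toGraphCore.IsInt (m • G.D₀ - Finsupp.single P 1) g ∧
      ValAt (G.s₁ i) ((G.S (G.src i)).red g) 1 ∧ ValAt (G.s₂ i) ((G.S (G.tgt i)).red g) 1 := by
  classical
  haveI : Nonempty κ := ⟨c⟩
  have hQ := G.td_smooth hf hne hord hm
  have hV := G.td_eq hf hne hord hm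
  have hdeg := hm.deg c
  obtain ⟨a, ha, -, hac, -⟩ := G.toGraphCore.td_exists_interp c
    (m • G.R c - Finsupp.single Q 1) (fun Q' hQ' => by
      have hQQ' : Q ≠ Q' := fun h => hQ' (h ▸ hQ)
      rw [Finsupp.sub_apply, G.td_smul_R_branch m hQ', Finsupp.single_apply, if_neg hQQ',
        sub_zero])
    ∅ (by simp) (by rw [map_sub, degree_single_one (G.S c).hFk]; omega) 1
  have hz : Function.update (1 : ∀ c, Fk c) c a ∈
      G.toGraphCore.V (m • G.D₀ - Finsupp.single P 1) := by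
    rw [hV]
    refine G.mem_tdRRSub_iff.mpr ⟨G.toGraphCore.td_one_update_mem (G.td_smul_R_nonneg m) c
      (riemannRochSpace_mono (td_sub_single_le _ Q) ha) hac, ?_⟩
    rw [Function.update_self]
    exact ha
  obtain ⟨g, hg, hgy⟩ := G.td_lift hz
  have hval : ∀ (c' : κ) (Q' : Place k (Fk c')), ¬ G.toGraphCore.IsSmoothPt c' Q' →
      ValAt Q' ((G.S c').red g) 1 := by
    intro c' Q' hQ'
    rw [hgy c']
    exact G.toGraphCore.td_valAt_update 1 c a
      (fun Q'' hQ'' e he => by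
        have he1 : e = 1 := ValAt.unique (f := (1 : Fk c)) he (td_valAt_one _)
        rw [he1]
        exact hac Q'' hQ'') c' Q' hQ' 1 (td_valAt_one _)
  exact ⟨g, hg, hval _ _ (G.toGraphCore.td_not_isSmoothPt_s₁ i),
    hval _ _ (G.toGraphCore.td_not_isSmoothPt_s₂ i)⟩

/-! ### type (N) -/

/-- **S3, node type, inclusion**: a witness of type (N) violating the node condition at `i`. -/
theorem GraphSeed.td_leN {m₁ : ℕ} {P : Place K F} {f : F}
    (hf : G.toGraphCore.IsInt (m₁ • G.D₀ + Finsupp.single P 1) f) {i : ι} {c₁ c₂ : k}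
    (h₁ : ValAt (G.s₁ i) ((G.S (G.src i)).red f) c₁)
    (h₂ : ValAt (G.s₂ i) ((G.S (G.tgt i)).red f) c₂) (hc : c₁ ≠ c₂) (m : ℕ) :
    G.toGraphCore.V (m • G.D₀ - Finsupp.single P 1) ≤ G.tdRRSub m (G.src i) (G.s₁ i) := by
  haveI : Nonempty κ := ⟨G.src i⟩
  intro y hy
  obtain ⟨g, hg, rfl⟩ := (G.toGraphCore.mem_V_iff _).mp hy
  have hseed := G.td_seed_of_sub hg
  refine ⟨hseed, ?_⟩
  show (G.S (G.src i)).red g ∈ riemannRochSpace (m • G.R (G.src i) - Finsupp.single (G.s₁ i) 1)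
  refine td_mem_sub_single (G.td_seed_of_sub_mem hg _) ?_
  obtain ⟨d, hd1, hd2⟩ := hseed.2 i
  obtain ⟨e, he1, he2⟩ := (G.td_mul_seed hf hg).2 i
  have hd1' : ValAt (G.s₁ i) ((G.S (G.src i)).red g) d := hd1
  have hd2' : ValAt (G.s₂ i) ((G.S (G.tgt i)).red g) d := hd2
  have he1' : ValAt (G.s₁ i) ((G.S (G.src i)).red f * (G.S (G.src i)).red g) e := he1
  have he2' : ValAt (G.s₂ i) ((G.S (G.tgt i)).red f * (G.S (G.tgt i)).red g) e := he2
  have e1 : e = c₁ * d := he1'.unique (h₁.mul hd1')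
  have e2 : e = c₂ * d := he2'.unique (h₂.mul hd2')
  have hd0 : d = 0 := by
    have : (c₁ - c₂) * d = 0 := by rw [sub_mul, ← e1, ← e2, sub_self]
    exact (mul_eq_zero.mp this).resolve_left (sub_ne_zero.mpr hc)
  rw [hd0, valAt_zero_right_iff] at hd1'
  rcases hd1' with h0 | h0
  · exact Or.inl h0
  · right
    rw [G.td_smul_R_branch m (G.toGraphCore.td_not_isSmoothPt_s₁ i)]
    have h0' : 0 < (G.s₁ i).ord ((G.S (G.src i)).red g) := h0
    omega

/-- a witness of type (N) violates the node condition at some node. -/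
theorem GraphSeed.td_exists_node {m₁ : ℕ} {f : F}
    (hfL : ∀ c, (G.S c).red f ∈ riemannRochSpace (m₁ • G.R c))
    (hn : G.toGraphCore.redAll f ∉ graphRR G.src G.tgt G.s₁ G.s₂ (fun c => m₁ • G.R c)) :
    ∃ (i : ι) (c₁ c₂ : k), ValAt (G.s₁ i) ((G.S (G.src i)).red f) c₁ ∧
      ValAt (G.s₂ i) ((G.S (G.tgt i)).red f) c₂ ∧ c₁ ≠ c₂ := by
  by_contra hcon
  push Not at hcon
  apply hn
  refine ⟨hfL, fun i => ?_⟩
  obtain ⟨c₁, hc₁⟩ := exists_const_sub (G.S (G.src i)).hFk (G.s₁ i)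
    (ord_nonneg_of_mem_of_apply_eq_zero
      (G.td_smul_R_branch m₁ (G.toGraphCore.td_not_isSmoothPt_s₁ i)) (hfL _))
  obtain ⟨c₂, hc₂⟩ := exists_const_sub (G.S (G.tgt i)).hFk (G.s₂ i)
    (ord_nonneg_of_mem_of_apply_eq_zero
      (G.td_smul_R_branch m₁ (G.toGraphCore.td_not_isSmoothPt_s₂ i)) (hfL _))
  have := hcon i c₁ c₂ hc₁ hc₂
  exact ⟨c₁, hc₁, this ▸ hc₂⟩

/-- **S3, node type**: if `P` has a witness of type (N), then for some node `i`,
`V(m D₀ - P) = {y ∈ graphRR (m R) | y(node i) = 0}` for all large `m`. -/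
theorem GraphSeed.td_eqN [Infinite k] {m₁ : ℕ} {P : Place K F} {f : F}
    (hf : G.toGraphCore.IsInt (m₁ • G.D₀ + Finsupp.single P 1) f)
    (hfL : ∀ c, (G.S c).red f ∈ riemannRochSpace (m₁ • G.R c))
    (hn : G.toGraphCore.redAll f ∉ graphRR G.src G.tgt G.s₁ G.s₂ (fun c => m₁ • G.R c)) :
    ∃ i : ι, ∀ m : ℕ, G.TDBig m → G.toGraphCore.V (m • G.D₀ - Finsupp.single P 1) =
      G.tdRRSub m (G.src i) (G.s₁ i) := by
  obtain ⟨i, c₁, c₂, h₁, h₂, hc⟩ := G.td_exists_node hfL hn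
  refine ⟨i, fun m hm => ?_⟩
  obtain ⟨z, hz, hzH⟩ := G.td_exists_notMem hm (G.src i) (G.s₁ i)
  exact G.td_eq_of_le hm P (G.td_leN hf h₁ h₂ hc m) (G.tdRRSub_le m _ _) hz hzH

/-- `unit` for a place of type (N). -/
theorem GraphSeed.td_unitN_big [Infinite k] {m₁ : ℕ} {P : Place K F} {f : F}
    (hf : G.toGraphCore.IsInt (m₁ • G.D₀ + Finsupp.single P 1) f)
    (hfL : ∀ c, (G.S c).red f ∈ riemannRochSpace (m₁ • G.R c))
    (hn : G.toGraphCore.redAll f ∉ graphRR G.src G.tgt G.s₁ G.s₂ (fun c => m₁ • G.R c))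
    {m : ℕ} (hm : G.TDBig m) (c' : κ) (Q' : Place k (Fk c'))
    (hQ' : G.toGraphCore.IsSmoothPt c' Q') :
    ∃ g : F, G.toGraphCore.IsInt (m • G.D₀ - Finsupp.single P 1) g ∧
      (G.S c').red g ≠ 0 ∧ Q'.ord ((G.S c').red g) = -((m • G.R c') Q') := by
  haveI : Nonempty κ := ⟨c'⟩
  obtain ⟨i, hV⟩ := G.td_eqN hf hfL hn
  obtain ⟨y, hy, hy0, hyQ⟩ := G.td_exists_unit hm (G.src i) (G.s₁ i) c' Q' hQ' (hQ'.1 i)
  rw [← hV m hm] at hy
  obtain ⟨g, hg, hgy⟩ := G.td_lift hy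
  exact ⟨g, hg, by rw [hgy c']; exact hy0, by rw [hgy c']; exact hyQ⟩

/-! ### uniqueness -/

/-- the point `(c, Q)` of a place of type `(c, Q)` is unique. -/
theorem GraphSeed.td_unique_big [Infinite k] {m₁ m₁' : ℕ} {P : Place K F} {c c' : κ}
    {Q : Place k (Fk c)} {Q' : Place k (Fk c')} {f f' : F}
    (hf : G.toGraphCore.IsInt (m₁ • G.D₀ + Finsupp.single P 1) f)
    (hne : (G.S c).red f ≠ 0) (hord : Q.ord ((G.S c).red f) = -((m₁ • G.R c) Q) - 1)
    (hf' : G.toGraphCore.IsInt (m₁' • G.D₀ + Finsupp.single P 1) f')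
    (hne' : (G.S c').red f' ≠ 0)
    (hord' : Q'.ord ((G.S c').red f') = -((m₁' • G.R c') Q') - 1) {m : ℕ} (hm : G.TDBig m) :
    (⟨c', Q'⟩ : Σ c, Place k (Fk c)) = ⟨c, Q⟩ := by
  by_contra hQQ'
  obtain ⟨g, hg, hg0, hgQ⟩ := G.td_unit_big hf hne hord hm c' Q'
    (G.td_smooth hf' hne' hord' hm) hQQ'
  exact G.td_excl hf' hne' hord' hg hg0 hgQ

/-- a place is not of type `(c, Q)` and of type (N). -/
theorem GraphSeed.td_notN_big [Infinite k] {m₁ m₁' : ℕ} {P : Place K F} {c : κ}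
    {Q : Place k (Fk c)} {f f' : F}
    (hf : G.toGraphCore.IsInt (m₁ • G.D₀ + Finsupp.single P 1) f)
    (hne : (G.S c).red f ≠ 0) (hord : Q.ord ((G.S c).red f) = -((m₁ • G.R c) Q) - 1)
    (hf' : G.toGraphCore.IsInt (m₁' • G.D₀ + Finsupp.single P 1) f')
    (hfL : ∀ c, (G.S c).red f' ∈ riemannRochSpace (m₁' • G.R c))
    (hn : G.toGraphCore.redAll f' ∉ graphRR G.src G.tgt G.s₁ G.s₂ (fun c => m₁' • G.R c))
    {m : ℕ} (hm : G.TDBig m) : False := by
  obtain ⟨g, hg, hg0, hgQ⟩ := G.td_unitN_big hf' hfL hn hm c Q (G.td_smooth hf hne hord hm)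
  exact G.td_excl hf hne hord hg hg0 hgQ

/-! ### the places of `supp D₀` -/

theorem GraphSeed.td_add_single_le {P : Place K F} (hP : G.D₀ P ≠ 0) (m₁ : ℕ) :
    m₁ • G.D₀ + Finsupp.single P 1 ≤ (m₁ + 1) • G.D₀ := by
  classical
  rw [add_smul, one_smul]
  refine add_le_add le_rfl ?_
  rw [Finsupp.le_def]
  intro v
  rw [Finsupp.single_apply]
  have h0 := (Finsupp.le_def.mp G.D₀_nonneg) v
  simp only [Finsupp.coe_zero, Pi.zero_apply] at h0
  split_ifs with hv
  · subst hv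
    omega
  · exact h0

/-- a place of `supp D₀` of type `(c, Q)`: `Q ∈ supp R_c`. -/
theorem GraphSeed.td_supp {m₁ : ℕ} {P : Place K F} {c : κ} {Q : Place k (Fk c)} {f : F}
    (hP : G.D₀ P ≠ 0)
    (hf : G.toGraphCore.IsInt (m₁ • G.D₀ + Finsupp.single P 1) f) (hne : (G.S c).red f ≠ 0)
    (hord : Q.ord ((G.S c).red f) = -((m₁ • G.R c) Q) - 1) : G.R c Q ≠ 0 := by
  have hseed := G.seed (m₁ + 1) f (riemannRochSpace_mono (G.td_add_single_le hP m₁) hf.1) hf.2
  have hmem : (G.S c).red f ∈ riemannRochSpace ((m₁ + 1) • G.R c) := hseed.1 c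
  have := ((mem_riemannRochSpace_iff.mp hmem) Q).resolve_left hne
  rw [hord, G.td_smul_add_apply, one_smul] at this
  intro h0
  rw [h0] at this
  omega

/-- a place of `supp D₀` is not of type (N). -/
theorem GraphSeed.td_suppN {m₁ : ℕ} {P : Place K F} {f : F} (hP : G.D₀ P ≠ 0)
    (hf : G.toGraphCore.IsInt (m₁ • G.D₀ + Finsupp.single P 1) f)
    (hfL : ∀ c, (G.S c).red f ∈ riemannRochSpace (m₁ • G.R c))
    (hn : G.toGraphCore.redAll f ∉ graphRR G.src G.tgt G.s₁ G.s₂ (fun c => m₁ • G.R c)) :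
    False := by
  have hseed := G.seed (m₁ + 1) f (riemannRochSpace_mono (G.td_add_single_le hP m₁) hf.1) hf.2
  exact hn ⟨hfL, hseed.2⟩

/-! ### the statements in the form of `GraphType`, from (LIFT) -/

/-- a witness of type `(c, Q)`: `(c, Q)` is not the first branch of a node. -/
theorem GraphSeed.td_ne_node₁ [Infinite k] (hl : G.HasLift) {m₁ : ℕ} {P : Place K F} {c : κ}
    {Q : Place k (Fk c)} {f : F}
    (hf : G.toGraphCore.IsInt (m₁ • G.D₀ + Finsupp.single P 1) f) (hne : (G.S c).red f ≠ 0)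
    (hord : Q.ord ((G.S c).red f) = -((m₁ • G.R c) Q) - 1) (i : ι) :
    (⟨c, Q⟩ : Σ c, Place k (Fk c)) ≠ ⟨G.src i, G.s₁ i⟩ := by
  haveI : Nonempty κ := ⟨c⟩
  obtain ⟨m, hm⟩ := G.exists_tdBig hl
  exact (G.td_smooth hf hne hord (hm m le_rfl)).1 i

/-- a witness of type `(c, Q)`: `(c, Q)` is not the second branch of a node. -/
theorem GraphSeed.td_ne_node₂ [Infinite k] (hl : G.HasLift) {m₁ : ℕ} {P : Place K F} {c : κ}
    {Q : Place k (Fk c)} {f : F}
    (hf : G.toGraphCore.IsInt (m₁ • G.D₀ + Finsupp.single P 1) f) (hne : (G.S c).red f ≠ 0)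
    (hord : Q.ord ((G.S c).red f) = -((m₁ • G.R c) Q) - 1) (i : ι) :
    (⟨c, Q⟩ : Σ c, Place k (Fk c)) ≠ ⟨G.tgt i, G.s₂ i⟩ := by
  haveI : Nonempty κ := ⟨c⟩
  obtain ⟨m, hm⟩ := G.exists_tdBig hl
  exact (G.td_smooth hf hne hord (hm m le_rfl)).2 i

/-- `zero` for a place of type `(c, Q)`. -/
theorem GraphSeed.td_zero [Infinite k] (hl : G.HasLift) {m₁ : ℕ} {P : Place K F} {c : κ}
    {Q : Place k (Fk c)} {f : F}
    (hf : G.toGraphCore.IsInt (m₁ • G.D₀ + Finsupp.single P 1) f) (hne : (G.S c).red f ≠ 0)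
    (hord : Q.ord ((G.S c).red f) = -((m₁ • G.R c) Q) - 1) :
    ∃ (m : ℕ) (g : F), G.toGraphCore.IsInt (m • G.D₀ - Finsupp.single P 1) g ∧
      (G.S c).red g ≠ 0 ∧ Q.ord ((G.S c).red g) = -((m • G.R c) Q) + 1 := by
  haveI : Nonempty κ := ⟨c⟩
  obtain ⟨m, hm⟩ := G.exists_tdBig hl
  exact ⟨m, G.td_zero_big hf hne hord (hm m le_rfl)⟩

/-- `unit` for a place of type `(c, Q)`, at the smooth points `(c', Q') ≠ (c, Q)`. -/
theorem GraphSeed.td_unit [Infinite k] (hl : G.HasLift) {m₁ : ℕ} {P : Place K F} {c : κ}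
    {Q : Place k (Fk c)} {f : F}
    (hf : G.toGraphCore.IsInt (m₁ • G.D₀ + Finsupp.single P 1) f) (hne : (G.S c).red f ≠ 0)
    (hord : Q.ord ((G.S c).red f) = -((m₁ • G.R c) Q) - 1)
    (c' : κ) (Q' : Place k (Fk c')) (hQ' : G.toGraphCore.IsSmoothPt c' Q')
    (hQQ' : (⟨c', Q'⟩ : Σ c, Place k (Fk c)) ≠ ⟨c, Q⟩) :
    ∃ (m : ℕ) (g : F), G.toGraphCore.IsInt (m • G.D₀ - Finsupp.single P 1) g ∧
      (G.S c').red g ≠ 0 ∧ Q'.ord ((G.S c').red g) = -((m • G.R c') Q') := by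
  haveI : Nonempty κ := ⟨c⟩
  obtain ⟨m, hm⟩ := G.exists_tdBig hl
  exact ⟨m, G.td_unit_big hf hne hord (hm m le_rfl) c' Q' hQ' hQQ'⟩

/-- `node_unit` for a place of type `(c, Q)`. -/
theorem GraphSeed.td_node_unit [Infinite k] (hl : G.HasLift) {m₁ : ℕ} {P : Place K F} {c : κ}
    {Q : Place k (Fk c)} {f : F}
    (hf : G.toGraphCore.IsInt (m₁ • G.D₀ + Finsupp.single P 1) f) (hne : (G.S c).red f ≠ 0)
    (hord : Q.ord ((G.S c).red f) = -((m₁ • G.R c) Q) - 1) (i : ι) :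
    ∃ (m : ℕ) (g : F), G.toGraphCore.IsInt (m • G.D₀ - Finsupp.single P 1) g ∧
      ValAt (G.s₁ i) ((G.S (G.src i)).red g) 1 ∧ ValAt (G.s₂ i) ((G.S (G.tgt i)).red g) 1 := by
  haveI : Nonempty κ := ⟨c⟩
  obtain ⟨m, hm⟩ := G.exists_tdBig hl
  exact ⟨m, G.td_node_unit_big hf hne hord (hm m le_rfl) i⟩

/-- `unit` for a place of type (N). -/
theorem GraphSeed.td_unitN [Infinite k] (hl : G.HasLift) {m₁ : ℕ} {P : Place K F} {f : F}
    (hf : G.toGraphCore.IsInt (m₁ • G.D₀ + Finsupp.single P 1) f)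
    (hfL : ∀ c, (G.S c).red f ∈ riemannRochSpace (m₁ • G.R c))
    (hn : G.toGraphCore.redAll f ∉ graphRR G.src G.tgt G.s₁ G.s₂ (fun c => m₁ • G.R c))
    (c' : κ) (Q' : Place k (Fk c')) (hQ' : G.toGraphCore.IsSmoothPt c' Q') :
    ∃ (m : ℕ) (g : F), G.toGraphCore.IsInt (m • G.D₀ - Finsupp.single P 1) g ∧
      (G.S c').red g ≠ 0 ∧ Q'.ord ((G.S c').red g) = -((m • G.R c') Q') := by
  haveI : Nonempty κ := ⟨c'⟩
  obtain ⟨m, hm⟩ := G.exists_tdBig hl
  exact ⟨m, G.td_unitN_big hf hfL hn (hm m le_rfl) c' Q' hQ'⟩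

/-- the point `(c, Q)` of a place of type `(c, Q)` is unique. -/
theorem GraphSeed.td_unique [Infinite k] (hl : G.HasLift) {m₁ m₁' : ℕ} {P : Place K F}
    {c c' : κ} {Q : Place k (Fk c)} {Q' : Place k (Fk c')} {f f' : F}
    (hf : G.toGraphCore.IsInt (m₁ • G.D₀ + Finsupp.single P 1) f)
    (hne : (G.S c).red f ≠ 0) (hord : Q.ord ((G.S c).red f) = -((m₁ • G.R c) Q) - 1)
    (hf' : G.toGraphCore.IsInt (m₁' • G.D₀ + Finsupp.single P 1) f')
    (hne' : (G.S c').red f' ≠ 0)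
    (hord' : Q'.ord ((G.S c').red f') = -((m₁' • G.R c') Q') - 1) :
    (⟨c', Q'⟩ : Σ c, Place k (Fk c)) = ⟨c, Q⟩ := by
  haveI : Nonempty κ := ⟨c⟩
  obtain ⟨m, hm⟩ := G.exists_tdBig hl
  exact G.td_unique_big hf hne hord hf' hne' hord' (hm m le_rfl)

/-- a place is not of type `(c, Q)` and of type (N). -/
theorem GraphSeed.td_notN [Infinite k] (hl : G.HasLift) {m₁ m₁' : ℕ} {P : Place K F} {c : κ}
    {Q : Place k (Fk c)} {f f' : F}
    (hf : G.toGraphCore.IsInt (m₁ • G.D₀ + Finsupp.single P 1) f)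
    (hne : (G.S c).red f ≠ 0) (hord : Q.ord ((G.S c).red f) = -((m₁ • G.R c) Q) - 1)
    (hf' : G.toGraphCore.IsInt (m₁' • G.D₀ + Finsupp.single P 1) f')
    (hfL : ∀ c, (G.S c).red f' ∈ riemannRochSpace (m₁' • G.R c))
    (hn : G.toGraphCore.redAll f' ∉ graphRR G.src G.tgt G.s₁ G.s₂ (fun c => m₁' • G.R c)) :
    False := by
  haveI : Nonempty κ := ⟨c⟩
  obtain ⟨m, hm⟩ := G.exists_tdBig hl
  exact G.td_notN_big hf hne hord hf' hfL hn (hm m le_rfl)

end Seed

end Fermat.Agent.BadRedG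
end
end MergeWrap_Lib_BadRed_Graph_Deuring_TypeDual
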